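/-
helper41 (P-S48 package CHEBOTAREV DENSITY).  Counting primes with a given Frobenius element.
For a Galois extension `M/K` of number fields and `g ∈ Gal(M/K)` let `frobPrimes g` be the set of
primes `Q` of `M` with trivial inertia group and Frobenius element `g`, and
`wsum g s = ∑_{Q ∈ frobPrimes g} N(Q ∩ K)^(-s)`.  Then for a finite set `S` of elements of the
Galois group, `∑_{g ∈ S} ord(g) * wsum g s ≤ #Gal(M/K) * ∑_{p ∈ frobSetU S} N(p)^(-s)`.
-/
import Mathlib
import Fermat.Agent.Lib.FrobDensity.SplitDensity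
import Fermat.Agent.Lib.CFT.Cheb.ZetaFactor
import Fermat.Agent.Lib.CFT.Cheb.PrimeSum

set_option autoImplicit false
set_option linter.unusedSectionVars false

namespace Fermat.Agent.Lib.CFT.ChebDensity.FrobCount

open NumberField IsDedekindDomain
open Fermat.Agent.Lib.FrobDensity

variable (K M : Type*) [Field K] [NumberField K] [Field M] [NumberField M] [Algebra K M]
  [IsGalois K M]

/-- The primes of `M` with trivial inertia group over `K` and Frobenius element `g`. -/
def frobPrimes (g : Gal(M/K)) : Set (HeightOneSpectrum (𝓞 M)) :=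
  {Q | IsArithFrobAt (𝓞 K) g Q.asIdeal ∧ Ideal.inertia Gal(M/K) Q.asIdeal = ⊥}

/-- The weight `N(Q ∩ K)^(-s)` of a prime `Q` of `M`. -/
noncomputable def wterm (s : ℝ) (Q : HeightOneSpectrum (𝓞 M)) : ℝ :=
  pterm K s (underPrime K M Q)

/-- `∑_{Q ∈ frobPrimes g} N(Q ∩ K)^(-s)`. -/
noncomputable def wsum (g : Gal(M/K)) (s : ℝ) : ℝ :=
  ∑' Q : HeightOneSpectrum (𝓞 M), (frobPrimes K M g).indicator (wterm K M s) Q

/-- The primes of `K` below a prime of `M` with trivial inertia and Frobenius element in `S`. -/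
def frobSetU (S : Set Gal(M/K)) : Set (HeightOneSpectrum (𝓞 K)) :=
  {p | ∃ Q : HeightOneSpectrum (𝓞 M), underPrime K M Q = p ∧ ∃ g ∈ S, Q ∈ frobPrimes K M g}

theorem wterm_nonneg (s : ℝ) (Q : HeightOneSpectrum (𝓞 M)) : 0 ≤ wterm K M s Q :=
  pterm_nonneg K s _

/-- The number of primes of `M` over a prime of `K` times the residue degree times the order of
the inertia group is the order of the Galois group. -/
theorem ncard_mul_card_inertia_mul_inertiaDeg (Q : HeightOneSpectrum (𝓞 M)) :
    ((underPrime K M Q).asIdeal.primesOver (𝓞 M)).ncard *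
      Nat.card (Ideal.inertia Gal(M/K) Q.asIdeal) * Q.asIdeal.inertiaDeg (𝓞 K) =
      Nat.card Gal(M/K) := by
  have hqm : (underPrime K M Q).asIdeal.IsMaximal := (underPrime K M Q).isMaximal
  exact Ideal.ncard_primesOver_mul_card_inertia_mul_finrank (G := Gal(M/K))
    (underPrime K M Q).asIdeal Q.asIdeal

theorem ncard_primesOver_pos (p : HeightOneSpectrum (𝓞 K)) :
    0 < (p.asIdeal.primesOver (𝓞 M)).ncard := by
  have hfin : (p.asIdeal.primesOver (𝓞 M)).Finite :=
    Algebra.QuasiFinite.finite_primesOver p.asIdeal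
  rw [Set.ncard_pos hfin]
  obtain ⟨⟨Q, hQ⟩⟩ := (inferInstance : Nonempty (p.asIdeal.primesOver (𝓞 M)))
  exact ⟨Q, hQ⟩

theorem ncard_primesOver_le (p : HeightOneSpectrum (𝓞 K)) :
    (p.asIdeal.primesOver (𝓞 M)).ncard ≤ Nat.card Gal(M/K) := by
  obtain ⟨⟨Q, hQp, hQl⟩⟩ := (inferInstance : Nonempty (p.asIdeal.primesOver (𝓞 M)))
  have hQ0 : Q ≠ ⊥ := Ideal.ne_bot_of_mem_primesOver p.ne_bot ⟨hQp, hQl⟩
  let Q' : HeightOneSpectrum (𝓞 M) := ⟨Q, hQp, hQ0⟩
  have hu : underPrime K M Q' = p := (underPrime_eq_iff K M Q' p).mpr ⟨hQp, hQl⟩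
  have h := ncard_mul_card_inertia_mul_inertiaDeg K M Q'
  rw [hu] at h
  have h1 : 0 < Nat.card (Ideal.inertia Gal(M/K) Q'.asIdeal) := Nat.card_pos
  have h2 : 0 < Q'.asIdeal.inertiaDeg (𝓞 K) := by
    rcases Nat.eq_zero_or_pos (Q'.asIdeal.inertiaDeg (𝓞 K)) with h0 | h0
    · rw [h0, mul_zero] at h
      have : 0 < Nat.card Gal(M/K) := Nat.card_pos
      omega
    · exact h0
  calc (p.asIdeal.primesOver (𝓞 M)).ncard
      ≤ (p.asIdeal.primesOver (𝓞 M)).ncard * (Nat.card (Ideal.inertia Gal(M/K) Q'.asIdeal) *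
          Q'.asIdeal.inertiaDeg (𝓞 K)) := Nat.le_mul_of_pos_right _ (Nat.mul_pos h1 h2)
    _ = Nat.card Gal(M/K) := by rw [← mul_assoc, h]

theorem card_filter_underPrime_le [DecidableEq (HeightOneSpectrum (𝓞 K))]
    (T : Finset (HeightOneSpectrum (𝓞 M))) (p : HeightOneSpectrum (𝓞 K)) :
    (T.filter fun Q => underPrime K M Q = p).card ≤ Nat.card Gal(M/K) := by
  have hfin := finite_fiber K M p
  have hsub : T.filter (fun Q => underPrime K M Q = p) ⊆ hfin.toFinset := by
    intro Q hQ
    rw [Set.Finite.mem_toFinset]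
    exact (Finset.mem_filter.mp hQ).2
  refine (Finset.card_le_card hsub).trans ?_
  rw [← Nat.card_eq_card_finite_toFinset hfin, natCard_fiber]
  exact ncard_primesOver_le K M p

theorem summable_wterm {s : ℝ} (hs : 1 < s) : Summable (wterm K M s) := by
  classical
  refine summable_of_sum_le (c := (Nat.card Gal(M/K) : ℝ) * ∑' p, pterm K s p)
    (fun Q => wterm_nonneg K M s Q) fun T => ?_
  exact Cheb.PrimeSum.sum_le_of_fiber_card_le (wterm K M s) (underPrime K M) (pterm K s)
    (Nat.card Gal(M/K)) (fun p => pterm_nonneg K s p) (fun Q => le_rfl) (summable_pterm K hs)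
    (card_filter_underPrime_le K M) T

theorem summable_indicator_wterm {s : ℝ} (hs : 1 < s) (A : Set (HeightOneSpectrum (𝓞 M))) :
    Summable (A.indicator (wterm K M s)) :=
  (summable_wterm K M hs).indicator A

/-- The Frobenius element at a prime with trivial inertia is unique. -/
theorem eq_of_mem_frobPrimes {g h : Gal(M/K)} {Q : HeightOneSpectrum (𝓞 M)}
    (hg : Q ∈ frobPrimes K M g) (hh : Q ∈ frobPrimes K M h) : g = h := by
  have := hg.1.mul_inv_mem_inertia hh.1
  rw [hg.2, Subgroup.mem_bot] at this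
  exact mul_inv_eq_one.mp this

/-- At a prime in `frobPrimes g`, the order of `g` times the number of primes in the fibre is the
order of the Galois group. -/
theorem ncard_mul_orderOf {g : Gal(M/K)} {Q : HeightOneSpectrum (𝓞 M)}
    (hg : Q ∈ frobPrimes K M g) :
    ((underPrime K M Q).asIdeal.primesOver (𝓞 M)).ncard * orderOf g = Nat.card Gal(M/K) := by
  have h := ncard_mul_card_inertia_mul_inertiaDeg K M Q
  rw [hg.2, Subgroup.card_bot, mul_one] at h
  have : Q.asIdeal.IsPrime := Q.isPrime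
  rw [Cheb.ZetaFactor.orderOf_eq_inertiaDeg Q.ne_bot hg.1 hg.2]
  exact h

/-- **The counting inequality.** -/
theorem sum_orderOf_mul_wsum_le (S : Finset Gal(M/K)) {s : ℝ} (hs : 1 < s) :
    ∑ g ∈ S, (orderOf g : ℝ) * wsum K M g s ≤
      (Nat.card Gal(M/K) : ℝ) * primeSum K (frobSetU K M (S : Set Gal(M/K))) s := by
  classical
  -- the function of `Q`
  set h : HeightOneSpectrum (𝓞 M) → ℝ := fun Q =>
    ∑ g ∈ S, (orderOf g : ℝ) * (frobPrimes K M g).indicator (wterm K M s) Q with hh
  have hsumm : ∀ g ∈ S, Summable fun Q =>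
      (orderOf g : ℝ) * (frobPrimes K M g).indicator (wterm K M s) Q :=
    fun g _ => (summable_indicator_wterm K M hs _).mul_left _
  have hhsum : Summable h := summable_sum hsumm
  have h1 : ∑ g ∈ S, (orderOf g : ℝ) * wsum K M g s = ∑' Q, h Q := by
    rw [hh, Summable.tsum_finsetSum hsumm]
    refine Finset.sum_congr rfl fun g _ => ?_
    rw [wsum, tsum_mul_left]
  have hh0 : ∀ Q, 0 ≤ h Q := fun Q =>
    Finset.sum_nonneg fun g _ => mul_nonneg (Nat.cast_nonneg _)
      (Set.indicator_nonneg (fun Q _ => wterm_nonneg K M s Q) Q)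
  -- pointwise bound of `h`
  have hbound : ∀ Q : HeightOneSpectrum (𝓞 M),
      h Q ≤ (frobSetU K M (S : Set Gal(M/K))).indicator (fun p =>
        (Nat.card Gal(M/K) : ℝ) / ((p.asIdeal.primesOver (𝓞 M)).ncard : ℝ) * pterm K s p)
        (underPrime K M Q) := by
    intro Q
    by_cases hQ : ∃ g ∈ S, Q ∈ frobPrimes K M g
    · obtain ⟨g, hgS, hgQ⟩ := hQ
      have hmemU : underPrime K M Q ∈ frobSetU K M (S : Set Gal(M/K)) :=
        ⟨Q, rfl, g, hgS, hgQ⟩
      rw [Set.indicator_of_mem hmemU, hh]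
      simp only
      rw [Finset.sum_eq_single g]
      · rw [Set.indicator_of_mem hgQ]
        have hN := ncard_mul_orderOf K M hgQ
        have hNpos : (0 : ℝ) <
            (((underPrime K M Q).asIdeal.primesOver (𝓞 M)).ncard : ℝ) := by
          exact_mod_cast ncard_primesOver_pos K M (underPrime K M Q)
        have : (orderOf g : ℝ) = (Nat.card Gal(M/K) : ℝ) /
            (((underPrime K M Q).asIdeal.primesOver (𝓞 M)).ncard : ℝ) := by
          rw [eq_div_iff hNpos.ne']
          rw [mul_comm]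
          exact_mod_cast hN
        rw [this]
        rfl
      · intro g' hg'S hne
        rw [Set.indicator_of_notMem, mul_zero]
        intro hg'Q
        exact hne (eq_of_mem_frobPrimes K M hg'Q hgQ)
      · intro hgS'
        exact absurd hgS hgS'
    · have hzero : h Q = 0 := by
        rw [hh]
        simp only
        refine Finset.sum_eq_zero fun g hg => ?_
        rw [Set.indicator_of_notMem, mul_zero]
        intro hgQ
        exact hQ ⟨g, hg, hgQ⟩
      rw [hzero]
      refine Set.indicator_nonneg (fun p _ => ?_) _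
      exact mul_nonneg (div_nonneg (Nat.cast_nonneg _) (Nat.cast_nonneg _)) (pterm_nonneg K s p)
  -- regroup along the fibres of `underPrime`
  have hfib := hhsum.hasSum.tsum_fiberwise (underPrime K M)
  have h2 := hfib.tsum_eq
  rw [h1, ← h2, primeSum, ← tsum_mul_left]
  have hsummR : Summable fun p : HeightOneSpectrum (𝓞 K) =>
      (Nat.card Gal(M/K) : ℝ) *
        (frobSetU K M (S : Set Gal(M/K))).indicator (pterm K s) p :=
    (summable_indicator_pterm K hs _).mul_left _
  refine hfib.summable.tsum_le_tsum (fun p => ?_) hsummR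
  have : Fintype (underPrime K M ⁻¹' {p}) := (finite_fiber K M p).fintype
  rw [tsum_fintype]
  have hcardfib : (Fintype.card (underPrime K M ⁻¹' {p}) : ℝ) =
      ((p.asIdeal.primesOver (𝓞 M)).ncard : ℝ) := by
    rw [← Nat.card_eq_fintype_card, natCard_fiber]
  have hNpos : (0 : ℝ) < ((p.asIdeal.primesOver (𝓞 M)).ncard : ℝ) := by
    exact_mod_cast ncard_primesOver_pos K M p
  by_cases hp : p ∈ frobSetU K M (S : Set Gal(M/K))
  · rw [Set.indicator_of_mem hp]
    calc ∑ Q : (underPrime K M ⁻¹' {p}), h Q.1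
        ≤ ∑ _Q : (underPrime K M ⁻¹' {p}), (Nat.card Gal(M/K) : ℝ) /
            ((p.asIdeal.primesOver (𝓞 M)).ncard : ℝ) * pterm K s p := by
          refine Finset.sum_le_sum fun Q _ => ?_
          have hQp : underPrime K M Q.1 = p := Q.2
          have := hbound Q.1
          rwa [hQp, Set.indicator_of_mem hp] at this
      _ = (Nat.card Gal(M/K) : ℝ) * pterm K s p := by
          rw [Finset.sum_const, Finset.card_univ, nsmul_eq_mul, hcardfib]
          field_simp
  · rw [Set.indicator_of_notMem hp, mul_zero]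
    refine le_of_eq (Finset.sum_eq_zero fun Q _ => ?_)
    have hQp : underPrime K M Q.1 = p := Q.2
    have := hbound Q.1
    rw [hQp, Set.indicator_of_notMem hp] at this
    exact le_antisymm this (hh0 Q.1)

end Fermat.Agent.Lib.CFT.ChebDensity.FrobCount
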