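/-
helper41 (P-S48 package CHEBOTAREV DENSITY).  The pole order argument with an arbitrary pole
order `d`: a generalisation of `Cheb/NonVanishing.lean` (where `d = 1`).

Let `L χ` (`χ` in a finite index type) be functions of a real variable `s ∈ (1, 2]` such that

* `k ≥ 1` of them (those in `triv`) are equal to one function `L₀` with `(s - 1) L₀ s → c ≠ 0`,
* the others satisfy `‖L χ s - L1 χ‖ ≤ B (s - 1)`,
* `(s - 1) ^ d ∏ χ, L χ s → c' ≠ 0` with `d ≥ 1`,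
* every function `L χ₀` with `χ₀ ∉ triv` occurs at least `k` times among the `L χ`, `χ ∉ triv`.

Then `k = d` and `L1 χ ≠ 0` for all `χ ∉ triv`.
-/
import Mathlib
import Fermat.Agent.Lib.CFT.Cheb.NonVanishing

set_option autoImplicit false

namespace Fermat.Agent.Lib.CFT.ChebDensity.PoleOrder

open Filter Topology Finset
open Fermat.Agent.Lib.CFT.Cheb.NonVanishing

variable {ι : Type*} [Fintype ι] [DecidableEq ι]

/-- **Step A**: no `L1 χ₀` vanishes. -/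
theorem L1_ne_zero_pow (L : ι → ℝ → ℂ) (L₀ : ℝ → ℂ) (L1 : ι → ℂ) (triv : Finset ι)
    {d : ℕ} (hd : 0 < d)
    (h0 : ∀ χ ∈ triv, ∀ s ∈ Set.Ioc (1 : ℝ) 2, L χ s = L₀ s)
    {c : ℂ} (hc : Tendsto (fun s : ℝ => ((s : ℂ) - 1) * L₀ s) (𝓝[>] (1 : ℝ)) (𝓝 c))
    (hLip : ∀ χ ∉ triv, ∃ B : ℝ, ∀ s ∈ Set.Ioc (1 : ℝ) 2, ‖L χ s - L1 χ‖ ≤ B * (s - 1))
    {c' : ℂ} (hc' : c' ≠ 0)
    (hprod : Tendsto (fun s : ℝ => ((s : ℂ) - 1) ^ d * ∏ χ, L χ s) (𝓝[>] (1 : ℝ)) (𝓝 c'))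
    (hrep : ∀ χ₀ ∉ triv, ∃ R : Finset ι, R.card = triv.card ∧
      ∀ χ ∈ R, χ ∉ triv ∧ ∀ s ∈ Set.Ioc (1 : ℝ) 2, L χ s = L χ₀ s)
    {χ₀ : ι} (hχ₀ : χ₀ ∉ triv) : L1 χ₀ ≠ 0 := by
  classical
  intro hzero
  obtain ⟨R, hRcard, hR⟩ := hrep χ₀ hχ₀
  have hdisj : Disjoint triv R := by
    rw [Finset.disjoint_left]
    intro χ h1 h2
    exact (hR χ h2).1 h1
  set rest : Finset ι := univ \ (triv ∪ R) with hrest
  obtain ⟨B₀, hB₀⟩ := hLip χ₀ hχ₀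
  have hbd : ∀ χ ∈ rest, ∃ C : ℝ, ∀ s ∈ Set.Ioc (1 : ℝ) 2, ‖L χ s‖ ≤ C := by
    intro χ hχ
    have hχt : χ ∉ triv := by
      intro h
      rw [hrest, Finset.mem_sdiff] at hχ
      exact hχ.2 (Finset.mem_union_left _ h)
    obtain ⟨B, hB⟩ := hLip χ hχt
    exact ⟨‖L1 χ‖ + |B|, fun s hs => norm_le_of_lip hB hs⟩
  choose! C hC using hbd
  have hfac : ∀ s ∈ Set.Ioc (1 : ℝ) 2, ∏ χ, L χ s =
      (L₀ s * L χ₀ s) ^ triv.card * ∏ χ ∈ rest, L χ s := by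
    intro s hs
    have h1 : (univ : Finset ι) = (triv ∪ R) ∪ rest := by
      rw [hrest, Finset.union_sdiff_of_subset (Finset.subset_univ _)]
    have h2 : Disjoint (triv ∪ R) rest := by
      rw [hrest]
      exact Finset.disjoint_sdiff
    rw [h1, Finset.prod_union h2, Finset.prod_union hdisj,
      Finset.prod_congr rfl (fun χ hχ => h0 χ hχ s hs),
      Finset.prod_congr rfl (fun χ hχ => (hR χ hχ).2 s hs), Finset.prod_const, Finset.prod_const,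
      hRcard, mul_pow]
  have hlim : Tendsto (fun s : ℝ => ((s : ℂ) - 1) ^ d * ∏ χ, L χ s) (𝓝[>] (1 : ℝ)) (𝓝 0) := by
    rw [tendsto_zero_iff_norm_tendsto_zero]
    have hn : Tendsto (fun s : ℝ => ‖((s : ℂ) - 1) ^ d‖) (𝓝[>] (1 : ℝ)) (𝓝 0) := by
      have := (tendsto_sub_one.pow d).norm
      simpa [zero_pow hd.ne'] using this
    have hmaj : Tendsto (fun s : ℝ => ‖((s : ℂ) - 1) ^ d‖ *
        ((‖((s : ℂ) - 1) * L₀ s‖ * |B₀|) ^ triv.card * ∏ χ ∈ rest, |C χ|))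
        (𝓝[>] (1 : ℝ)) (𝓝 (0 * ((‖c‖ * |B₀|) ^ triv.card * ∏ χ ∈ rest, |C χ|))) :=
      hn.mul ((((hc.norm).mul_const _).pow _).mul_const _)
    rw [zero_mul] at hmaj
    refine squeeze_zero' (Eventually.of_forall fun s => norm_nonneg _) ?_ hmaj
    filter_upwards [Ioc_mem_nhdsGT_one] with s hs
    rw [hfac s hs, norm_mul, norm_mul, norm_pow (L₀ s * L χ₀ s)]
    refine mul_le_mul_of_nonneg_left ?_ (norm_nonneg _)
    have hs1 : (0 : ℝ) < s - 1 := by linarith [hs.1]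
    have hnorm1 : ‖(s : ℂ) - 1‖ = s - 1 := by
      rw [← Complex.ofReal_one, ← Complex.ofReal_sub, Complex.norm_real, Real.norm_eq_abs,
        abs_of_pos hs1]
    have h3 : ‖L₀ s * L χ₀ s‖ ≤ ‖((s : ℂ) - 1) * L₀ s‖ * |B₀| := by
      have h4 : ‖L χ₀ s‖ ≤ B₀ * (s - 1) := by
        have := hB₀ s hs
        rwa [hzero, sub_zero] at this
      have h5 : ‖L χ₀ s‖ ≤ |B₀| * (s - 1) :=
        h4.trans (mul_le_mul_of_nonneg_right (le_abs_self _) hs1.le)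
      rw [norm_mul, norm_mul, hnorm1]
      calc ‖L₀ s‖ * ‖L χ₀ s‖ ≤ ‖L₀ s‖ * (|B₀| * (s - 1)) :=
            mul_le_mul_of_nonneg_left h5 (norm_nonneg _)
        _ = (s - 1) * ‖L₀ s‖ * |B₀| := by ring
    have h6 : ‖∏ χ ∈ rest, L χ s‖ ≤ ∏ χ ∈ rest, |C χ| := by
      rw [norm_prod]
      exact Finset.prod_le_prod (fun χ _ => norm_nonneg _)
        fun χ hχ => (hC χ hχ s hs).trans (le_abs_self _)
    exact mul_le_mul (pow_le_pow_left₀ (norm_nonneg _) h3 _) h6 (norm_nonneg _)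
      (pow_nonneg (mul_nonneg (norm_nonneg _) (abs_nonneg _)) _)
  exact hc' (tendsto_nhds_unique hprod hlim)

/-- **The pole order argument**: the number of functions with a pole is the pole order of the
product. -/
theorem card_triv_eq (L : ι → ℝ → ℂ) (L₀ : ℝ → ℂ) (L1 : ι → ℂ) (triv : Finset ι)
    {d : ℕ} (hd : 0 < d)
    (h0 : ∀ χ ∈ triv, ∀ s ∈ Set.Ioc (1 : ℝ) 2, L χ s = L₀ s)
    {c : ℂ} (hc0 : c ≠ 0)
    (hc : Tendsto (fun s : ℝ => ((s : ℂ) - 1) * L₀ s) (𝓝[>] (1 : ℝ)) (𝓝 c))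
    (hLip : ∀ χ ∉ triv, ∃ B : ℝ, ∀ s ∈ Set.Ioc (1 : ℝ) 2, ‖L χ s - L1 χ‖ ≤ B * (s - 1))
    {c' : ℂ} (hc' : c' ≠ 0)
    (hprod : Tendsto (fun s : ℝ => ((s : ℂ) - 1) ^ d * ∏ χ, L χ s) (𝓝[>] (1 : ℝ)) (𝓝 c'))
    (hrep : ∀ χ₀ ∉ triv, ∃ R : Finset ι, R.card = triv.card ∧
      ∀ χ ∈ R, χ ∉ triv ∧ ∀ s ∈ Set.Ioc (1 : ℝ) 2, L χ s = L χ₀ s) :
    triv.card = d := by
  classical
  have hne : ∀ χ ∉ triv, L1 χ ≠ 0 := fun χ hχ =>
    L1_ne_zero_pow L L₀ L1 triv hd h0 hc hLip hc' hprod hrep hχ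
  have hPi : Tendsto (fun s : ℝ => ∏ χ ∈ univ \ triv, L χ s) (𝓝[>] (1 : ℝ))
      (𝓝 (∏ χ ∈ univ \ triv, L1 χ)) := by
    refine tendsto_finsetProd _ fun χ hχ => ?_
    have hχt : χ ∉ triv := (Finset.mem_sdiff.mp hχ).2
    obtain ⟨B, hB⟩ := hLip χ hχt
    exact tendsto_of_lip hB
  have hPi0 : ∏ χ ∈ univ \ triv, L1 χ ≠ 0 :=
    Finset.prod_ne_zero_iff.mpr fun χ hχ => hne χ (Finset.mem_sdiff.mp hχ).2
  have hfac : ∀ s ∈ Set.Ioc (1 : ℝ) 2, ∏ χ, L χ s =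
      L₀ s ^ triv.card * ∏ χ ∈ univ \ triv, L χ s := by
    intro s hs
    have h1 : (univ : Finset ι) = triv ∪ (univ \ triv) := by
      rw [Finset.union_sdiff_of_subset (Finset.subset_univ _)]
    have h2 : Disjoint triv (univ \ triv) := Finset.disjoint_sdiff
    conv_lhs => rw [h1]
    rw [Finset.prod_union h2, Finset.prod_congr rfl (fun χ hχ => h0 χ hχ s hs),
      Finset.prod_const]
  set e : ℂ := c' / ∏ χ ∈ univ \ triv, L1 χ with he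
  have he0 : e ≠ 0 := div_ne_zero hc' hPi0
  -- `(s - 1) ^ d L₀ ^ k` has the nonzero limit `e`
  have h3 : Tendsto (fun s : ℝ => ((s : ℂ) - 1) ^ d * L₀ s ^ triv.card) (𝓝[>] (1 : ℝ)) (𝓝 e) := by
    have h4 := hprod.div hPi hPi0
    refine h4.congr' ?_
    have hev : ∀ᶠ s : ℝ in 𝓝[>] (1 : ℝ), ∏ χ ∈ univ \ triv, L χ s ≠ 0 :=
      hPi.eventually_ne hPi0
    filter_upwards [Ioc_mem_nhdsGT_one, hev] with s hs hs0
    rw [Pi.div_apply, hfac s hs]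
    field_simp
  -- `((s - 1) L₀) ^ k` has the nonzero limit `c ^ k`
  have h6 : Tendsto (fun s : ℝ => (((s : ℂ) - 1) * L₀ s) ^ triv.card) (𝓝[>] (1 : ℝ))
      (𝓝 (c ^ triv.card)) := hc.pow _
  rcases lt_trichotomy triv.card d with hlt | heq | hgt
  · exfalso
    obtain ⟨j, hj⟩ : ∃ j, d = triv.card + (j + 1) := ⟨d - triv.card - 1, by omega⟩
    have h5 : Tendsto (fun s : ℝ => ((s : ℂ) - 1) ^ (j + 1) *
        (((s : ℂ) - 1) * L₀ s) ^ triv.card) (𝓝[>] (1 : ℝ))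
        (𝓝 (0 ^ (j + 1) * c ^ triv.card)) := (tendsto_sub_one.pow (j + 1)).mul h6
    rw [zero_pow (Nat.succ_ne_zero j), zero_mul] at h5
    have h7 : (fun s : ℝ => ((s : ℂ) - 1) ^ (j + 1) * (((s : ℂ) - 1) * L₀ s) ^ triv.card) =
        fun s : ℝ => ((s : ℂ) - 1) ^ d * L₀ s ^ triv.card := by
      funext s
      rw [hj]
      generalize ((s : ℂ) - 1) = u
      ring
    rw [h7] at h5
    exact he0 (tendsto_nhds_unique h3 h5)
  · exact heq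
  · exfalso
    obtain ⟨j, hj⟩ : ∃ j, triv.card = d + (j + 1) := ⟨triv.card - d - 1, by omega⟩
    have h5 : Tendsto (fun s : ℝ => ((s : ℂ) - 1) ^ (j + 1) *
        (((s : ℂ) - 1) ^ d * L₀ s ^ triv.card)) (𝓝[>] (1 : ℝ))
        (𝓝 (0 ^ (j + 1) * e)) := (tendsto_sub_one.pow (j + 1)).mul h3
    rw [zero_pow (Nat.succ_ne_zero j), zero_mul] at h5
    have h7 : (fun s : ℝ => ((s : ℂ) - 1) ^ (j + 1) * (((s : ℂ) - 1) ^ d * L₀ s ^ triv.card)) =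
        fun s : ℝ => (((s : ℂ) - 1) * L₀ s) ^ triv.card := by
      funext s
      have : ((s : ℂ) - 1) ^ (j + 1) * (((s : ℂ) - 1) ^ d * L₀ s ^ triv.card) =
          ((s : ℂ) - 1) ^ (d + (j + 1)) * L₀ s ^ triv.card := by ring
      rw [this, ← hj, mul_pow]
    rw [h7] at h5
    exact pow_ne_zero _ hc0 (tendsto_nhds_unique h6 h5)

end Fermat.Agent.Lib.CFT.ChebDensity.PoleOrder
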