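/-
helper41 (P-S48 package CHEBOTAREV DENSITY).  The generalized Dirichlet theorem WITHOUT
irreducibility of the cyclotomic polynomial, in quantitative form: for a number field `F`, a
modulus `m` and `M = F(ζ_m)`, the subgroup `H` of the norm residues modulo `m` has `[M : F]`
elements, and for `a ∈ H` the primes of `F` with `N𝔭 ≡ a (mod m)` have logarithmic density
`1 / [M : F]` (with bounded error term).
-/
import Mathlib
import Fermat.Agent.Lib.CFT.ChebDensity.PoleOrder
import Fermat.Agent.Lib.CFT.ChebDensity.ZetaFactorGen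
import Fermat.Agent.Lib.CFT.Cheb.NonVanishingGlue
import Fermat.Agent.Lib.CFT.Cheb.PrimeSum
import Fermat.Agent.Lib.CFT.Cheb.Main
import Fermat.Agent.Lib.FrobDensity.Basic
import Fermat.Agent.Lib.FrobDensity.PrimeSum

set_option autoImplicit false
set_option linter.unusedSectionVars false

namespace Fermat.Agent.Lib.CFT.ChebDensity.GenDirichlet

open NumberField IsDedekindDomain Filter Topology Finset
open Fermat.Agent.Lib.CFT.Cheb Fermat.Agent.Lib.CFT.Cheb.CharGroup
open Fermat.Agent.Lib.CFT.Cheb.LSeries Fermat.Agent.Lib.CFT.Cheb.NonVanishing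
open Fermat.Agent.Lib.CFT.Unram
open Fermat.Agent.Lib.CFT.ChebDensity.ZetaFactorGen

universe u

section PoleOrderConcrete

variable (F : Type*) [Field F] [NumberField F] (m : ℕ) [NeZero m]

/-- The pole order argument for the norm-residue `L`-series, with pole order `d`. -/
theorem card_trivOn_eq_and_L1_ne_zero (H : Subgroup (ZMod m)ˣ)
    (L1 : DirichletCharacter ℂ m → ℂ)
    (hdep : ∀ χ ψ : DirichletCharacter ℂ m,
      (∀ a ∈ H, χ ((a : (ZMod m)ˣ) : ZMod m) = ψ ((a : (ZMod m)ˣ) : ZMod m)) →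
      ∀ s ∈ Set.Ioc (1 : ℝ) 2, LSer F m χ (s : ℂ) = LSer F m ψ (s : ℂ))
    {c : ℂ} (hc0 : c ≠ 0)
    (hc : Tendsto (fun s : ℝ => ((s : ℂ) - 1) * LSer F m 1 (s : ℂ)) (𝓝[>] (1 : ℝ)) (𝓝 c))
    (hLip : ∀ χ : DirichletCharacter ℂ m, χ ∉ trivOn H →
      ∃ B : ℝ, ∀ s ∈ Set.Ioc (1 : ℝ) 2, ‖LSer F m χ (s : ℂ) - L1 χ‖ ≤ B * (s - 1))
    {d : ℕ} (hd : 0 < d) {c' : ℂ} (hc' : c' ≠ 0)
    (hprod : Tendsto (fun s : ℝ => ((s : ℂ) - 1) ^ d * ∏ χ : DirichletCharacter ℂ m,
      LSer F m χ (s : ℂ)) (𝓝[>] (1 : ℝ)) (𝓝 c')) :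
    Nat.card (trivOn H) = d ∧ ∀ χ : DirichletCharacter ℂ m, χ ∉ trivOn H → L1 χ ≠ 0 := by
  classical
  set triv : Finset (DirichletCharacter ℂ m) := univ.filter fun χ => χ ∈ trivOn H with htriv
  have hmem : ∀ χ, χ ∈ triv ↔ χ ∈ trivOn H := fun χ => by
    rw [htriv, Finset.mem_filter]
    exact ⟨fun h => h.2, fun h => ⟨Finset.mem_univ _, h⟩⟩
  have hcard : triv.card = Nat.card (trivOn H) := by
    rw [Nat.card_eq_fintype_card, htriv, Fintype.card_subtype]
  have h0 : ∀ χ ∈ triv, ∀ s ∈ Set.Ioc (1 : ℝ) 2, LSer F m χ (s : ℂ) = LSer F m 1 (s : ℂ) :=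
    fun χ hχ s hs => hdep χ 1 (fun a ha => by
      rw [(hmem χ).mp hχ a ha, MulChar.one_apply_coe]) s hs
  have hLip' : ∀ χ ∉ triv, ∃ B : ℝ, ∀ s ∈ Set.Ioc (1 : ℝ) 2,
      ‖LSer F m χ (s : ℂ) - L1 χ‖ ≤ B * (s - 1) := fun χ hχ =>
    hLip χ (fun h => hχ ((hmem χ).mpr h))
  have hrep : ∀ χ₀ ∉ triv, ∃ R : Finset (DirichletCharacter ℂ m), R.card = triv.card ∧
      ∀ χ ∈ R, χ ∉ triv ∧ ∀ s ∈ Set.Ioc (1 : ℝ) 2,
        LSer F m χ (s : ℂ) = LSer F m χ₀ (s : ℂ) := by
    intro χ₀ hχ₀
    refine ⟨triv.image fun χ₁ => χ₀ * χ₁,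
      Finset.card_image_of_injective _ (mul_left_injective' χ₀), ?_⟩
    intro χ hχ
    obtain ⟨χ₁, hχ₁, rfl⟩ := Finset.mem_image.mp hχ
    have h₁ : χ₁ ∈ trivOn H := (hmem χ₁).mp hχ₁
    refine ⟨fun h => hχ₀ ((hmem χ₀).mpr ((mul_mem_trivOn_iff χ₀ h₁).mp ((hmem _).mp h))), ?_⟩
    exact fun s hs => hdep _ _ (fun a ha => mul_apply_of_mem_trivOn χ₀ h₁ ha) s hs
  have hone := PoleOrder.card_triv_eq (fun χ (s : ℝ) => LSer F m χ (s : ℂ))
    (fun s : ℝ => LSer F m 1 (s : ℂ)) L1 triv hd h0 hc0 hc hLip' hc' hprod hrep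
  refine ⟨hcard ▸ hone, fun χ hχ => ?_⟩
  have hχt : χ ∉ triv := fun h => hχ ((hmem χ).mp h)
  exact PoleOrder.L1_ne_zero_pow (fun χ (s : ℝ) => LSer F m χ (s : ℂ))
    (fun s : ℝ => LSer F m 1 (s : ℂ)) L1 triv hd h0 hc hLip' hc' hprod hrep hχt

end PoleOrderConcrete

section Card

variable (F : Type u) [Field F] [NumberField F] (m : ℕ) [NeZero m]
  (M : Type*) [Field M] [NumberField M] [Algebra F M] [IsCyclotomicExtension {m} F M]

/-- The number of characters trivial on the norm residues is the pole order `φ(m) / [M : F]`, and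
the `L`-series of the other characters have nonzero limits at `1⁺`. -/
theorem card_trivOn_normResidues_and_limit_ne_zero :
    Nat.card (trivOn (normResiduesSubgroup F m)) = dexp F M m ∧
    ∀ χ : DirichletCharacter ℂ m, χ ∉ trivOn (normResiduesSubgroup F m) →
      ∃ L1 : ℂ, L1 ≠ 0 ∧
        Tendsto (fun s : ℝ => LSer F m χ (s : ℂ)) (𝓝[>] 1) (𝓝 L1) := by
  have hZ : PartialZetaLipschitz.{u} := partialZetaLipschitz
  have hc0 : ((poleConst F m : ℝ) : ℂ) ≠ 0 :=
    Complex.ofReal_ne_zero.mpr (poleConst_pos F m).ne'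
  have hc' : ((poleConst M m : ℝ) : ℂ) ^ dexp F M m ≠ 0 :=
    pow_ne_zero _ (Complex.ofReal_ne_zero.mpr (poleConst_pos M m).ne')
  have hmain := card_trivOn_eq_and_L1_ne_zero F m (normResiduesSubgroup F m)
    (limitValue F m hZ)
    (fun χ ψ h s hs => LSer_congr F m χ ψ h hs) hc0 (tendsto_sub_one_mul_LSer_one F m)
    (fun χ hχ => by
      obtain ⟨B, -, hB, -⟩ := limitValue_spec F m hZ χ ((notMem_trivOn_iff F m χ).mp hχ)
      exact ⟨B, hB⟩) (dexp_pos F M m) hc' (tendsto_sub_one_pow_mul_prod_LSer F M m)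
  refine ⟨hmain.1, fun χ hχ => ?_⟩
  obtain ⟨B, -, -, hlim⟩ := limitValue_spec F m hZ χ ((notMem_trivOn_iff F m χ).mp hχ)
  exact ⟨limitValue F m hZ χ, hmain.2 χ hχ, hlim⟩

/-- The norm residues modulo `m` form a group with `[F(ζ_m) : F]` elements. -/
theorem card_normResidues :
    Nat.card (normResiduesSubgroup F m) = Module.finrank F M := by
  have h1 := card_trivOn_mul_card (normResiduesSubgroup F m)
  rw [(card_trivOn_normResidues_and_limit_ne_zero F m M).1] at h1
  have h2 := dexp_mul_finrank F M m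
  exact Nat.eq_of_mul_eq_mul_left (dexp_pos F M m) (h1.trans h2.symm)

end Card

section PrimeSums

open Fermat.Agent.Lib.CFT.Cheb.PrimeSum

variable (F : Type u) [Field F] [NumberField F] (m : ℕ) [NeZero m]

/-- The primes of `F` with norm `≡ a (mod m)`. -/
def normClass (a : ZMod m) : Set (HeightOneSpectrum (𝓞 F)) :=
  {p | (Ideal.absNorm p.asIdeal : ZMod m) = a}

/-- The primes of `F` whose norm is a unit modulo `m`. -/
def unitPrimes : Set (HeightOneSpectrum (𝓞 F)) :=
  {p | IsUnit (Ideal.absNorm p.asIdeal : ZMod m)}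

theorem classSum_eq_primeSum (a : ZMod m) (s : ℝ) :
    classSum F m a s = FrobDensity.primeSum F (normClass F m a) s := by
  classical
  unfold classSum FrobDensity.primeSum
  refine tsum_congr fun p => ?_
  by_cases h : (Ideal.absNorm p.asIdeal : ZMod m) = a
  · rw [if_pos h, Set.indicator_of_mem (show p ∈ normClass F m a from h)]
    rfl
  · rw [if_neg h, Set.indicator_of_notMem (show p ∉ normClass F m a from h)]

/-- The norm of a prime, when it is a unit modulo `m`, is a norm residue. -/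
theorem unit_mem_normResidues (p : HeightOneSpectrum (𝓞 F)) (u : (ZMod m)ˣ)
    (hu : (u : ZMod m) = (Ideal.absNorm p.asIdeal : ZMod m)) : u ∈ normResidues F m :=
  ⟨EulerProduct.primeIdeal F p, by rw [normRes_apply, EulerProduct.coe_primeIdeal, hu]⟩

theorem compl_unitPrimes_finite : (unitPrimes F m)ᶜ.Finite := by
  refine (primesDividing F m).finite_toSet.subset fun p hp => ?_
  by_contra hpd
  apply hp
  have h := (isUnit_normRes_iff F m (EulerProduct.primeIdeal F p)).2 ?_
  · rwa [normRes_apply, EulerProduct.coe_primeIdeal] at h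
  · rw [EulerProduct.coe_primeIdeal, EulerProduct.mem_sieve]
    intro q hq hdvd
    have hle : p.asIdeal ≤ q.asIdeal := Ideal.le_of_dvd hdvd
    have : q = p := by
      apply HeightOneSpectrum.ext
      exact (p.isMaximal.eq_of_le q.isPrime.ne_top hle).symm
    rw [this] at hq
    exact hpd hq

theorem hasLogDensity_unitPrimes : FrobDensity.HasLogDensity F (unitPrimes F m) 1 := by
  have h := FrobDensity.HasLogDensity.diff_null (FrobDensity.hasLogDensity_univ F)
    (FrobDensity.HasLogDensity.of_finite (compl_unitPrimes_finite F m))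
  rwa [Set.sdiff_compl, Set.univ_inter] at h

/-- Characters trivial on the norm residues have the prime sum of the trivial character. -/
theorem primeSum_eq_of_mem_trivOn (χ : DirichletCharacter ℂ m)
    (hχ : χ ∈ trivOn (normResiduesSubgroup F m)) (s : ℝ) :
    primeSum F m χ s = primeSum F m 1 s := by
  unfold primeSum
  refine tsum_congr fun p => ?_
  rw [zterm_eq, zterm_eq]
  by_cases hu : IsUnit (Ideal.absNorm p.asIdeal : ZMod m)
  · obtain ⟨u, hu⟩ := hu
    rw [← hu, hχ u (unit_mem_normResidues F m p u hu), MulChar.one_apply_coe]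
  · rw [MulChar.map_nonunit χ hu, MulChar.map_nonunit _ hu]

/-- The prime sum of the trivial character is the sum over the primes with unit norm. -/
theorem primeSum_one_eq (s : ℝ) :
    primeSum F m (1 : DirichletCharacter ℂ m) s =
      ((FrobDensity.primeSum F (unitPrimes F m) s : ℝ) : ℂ) := by
  classical
  unfold primeSum FrobDensity.primeSum
  rw [Complex.ofReal_tsum]
  refine tsum_congr fun p => ?_
  rw [zterm_eq]
  by_cases hu : IsUnit (Ideal.absNorm p.asIdeal : ZMod m)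
  · rw [Set.indicator_of_mem (show p ∈ unitPrimes F m from hu), MulChar.one_apply hu, one_mul]
    unfold FrobDensity.pterm
    rw [Complex.ofReal_cpow (Nat.cast_nonneg _)]
    push_cast
    rfl
  · rw [Set.indicator_of_notMem (show p ∉ unitPrimes F m from hu), MulChar.map_nonunit _ hu,
      zero_mul, Complex.ofReal_zero]

/-- The prime sum of a character whose `L`-series has a nonzero limit at `1⁺` is bounded on
`(1, 2]`. -/
theorem exists_bound_primeSum (χ : DirichletCharacter ℂ m) {L1 : ℂ} (hL1 : L1 ≠ 0)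
    (h : Tendsto (fun s : ℝ => LSer F m χ (s : ℂ)) (𝓝[>] (1 : ℝ)) (𝓝 L1)) :
    ∃ B : ℝ, ∀ s : ℝ, 1 < s → s ≤ 2 → ‖primeSum F m χ s‖ ≤ B := by
  obtain ⟨B0, hB0⟩ := eventually_norm_primeSum_le F m χ hL1 h
  obtain ⟨u, hu1, hu⟩ := mem_nhdsGT_iff_exists_Ioo_subset.mp hB0
  have hu1' : (1 : ℝ) < u := hu1
  refine ⟨max B0 (∑' p : HeightOneSpectrum (𝓞 F), nrm F p ^ (-u)), fun s hs1 _ => ?_⟩
  by_cases hsu : s < u
  · exact (hu ⟨hs1, hsu⟩).trans (le_max_left _ _)
  · have hus : u ≤ s := not_lt.mp hsu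
    refine le_trans ?_ (le_max_right _ _)
    have h1 : ‖primeSum F m χ s‖ ≤ ∑' p : HeightOneSpectrum (𝓞 F), ‖zterm F m χ s p‖ :=
      norm_tsum_le_tsum_norm (summable_norm_zterm F m χ hs1)
    refine h1.trans ?_
    refine (summable_norm_zterm F m χ hs1).tsum_le_tsum (fun p => ?_) (summable_nrm_rpow F hu1')
    exact (norm_zterm_le F m χ (by linarith) p).trans (nrm_rpow_neg_mono F p hus)

variable (M : Type*) [Field M] [NumberField M] [Algebra F M] [IsCyclotomicExtension {m} F M]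

/-- **Generalized Dirichlet theorem, density form, without irreducibility.**  For a norm residue
`a` modulo `m`, the primes of `F` with `N𝔭 ≡ a (mod m)` have logarithmic density `1 / [M : F]`,
`M = F(ζ_m)`. -/
theorem hasLogDensity_normClass (a : (ZMod m)ˣ) (ha : a ∈ normResidues F m) :
    FrobDensity.HasLogDensity F (normClass F m (a : ZMod m))
      (1 / (Module.finrank F M : ℝ)) := by
  classical
  set H := normResiduesSubgroup F m with hH
  obtain ⟨hcardtriv, hlim⟩ := card_trivOn_normResidues_and_limit_ne_zero F m M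
  -- bounds for the characters which are not trivial on `H`
  have hB : ∀ χ : DirichletCharacter ℂ m, ∃ B : ℝ, χ ∉ trivOn H →
      ∀ s : ℝ, 1 < s → s ≤ 2 → ‖primeSum F m χ s‖ ≤ B := by
    intro χ
    by_cases hχ : χ ∈ trivOn H
    · exact ⟨0, fun h => absurd hχ h⟩
    · obtain ⟨L1, hL1, ht⟩ := hlim χ hχ
      obtain ⟨B, hB⟩ := exists_bound_primeSum F m χ hL1 ht
      exact ⟨B, fun _ => hB⟩
  choose B hB using hB
  obtain ⟨C1, hC1⟩ := hasLogDensity_unitPrimes F m
  set triv : Finset (DirichletCharacter ℂ m) := univ.filter fun χ => χ ∈ trivOn H with htriv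
  have hmem : ∀ χ, χ ∈ triv ↔ χ ∈ trivOn H := fun χ => by
    rw [htriv, Finset.mem_filter]
    exact ⟨fun h => h.2, fun h => ⟨Finset.mem_univ _, h⟩⟩
  have hcard : triv.card = Nat.card (trivOn H) := by
    rw [Nat.card_eq_fintype_card, htriv, Fintype.card_subtype]
  have hk : (triv.card : ℝ) * (Module.finrank F M : ℝ) = (m.totient : ℝ) := by
    rw [hcard, hcardtriv]
    exact_mod_cast dexp_mul_finrank F M m
  have hnpos : (0 : ℝ) < (Module.finrank F M : ℝ) := by exact_mod_cast Module.finrank_pos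
  have hφpos : (0 : ℝ) < (m.totient : ℝ) := by
    exact_mod_cast Nat.totient_pos.mpr (NeZero.pos m)
  have hainv : a⁻¹ ∈ H := H.inv_mem ha
  have hval : ((a : ZMod m))⁻¹ = ((a⁻¹ : (ZMod m)ˣ) : ZMod m) := by
    rw [ZMod.inv_coe_unit]
  refine ⟨((triv.card : ℝ) * C1 + ∑ χ ∈ univ \ triv, B χ) / (m.totient : ℝ),
    fun s hs hs2 => ?_⟩
  have hmain := sum_char_mul_primeSum F m a hs
  -- split the sum
  have hsplit : ∑ χ : DirichletCharacter ℂ m, χ ((a : ZMod m)⁻¹) * primeSum F m χ s =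
      (triv.card : ℂ) * ((FrobDensity.primeSum F (unitPrimes F m) s : ℝ) : ℂ) +
        ∑ χ ∈ univ \ triv, χ ((a : ZMod m)⁻¹) * primeSum F m χ s := by
    have h1 : (univ : Finset (DirichletCharacter ℂ m)) = triv ∪ (univ \ triv) := by
      rw [Finset.union_sdiff_of_subset (Finset.subset_univ _)]
    have h2 : Disjoint triv (univ \ triv) := Finset.disjoint_sdiff
    conv_lhs => rw [h1]
    rw [Finset.sum_union h2]
    congr 1
    rw [Finset.sum_congr rfl (fun χ hχ => by
      rw [hval, (hmem χ).mp hχ _ hainv, one_mul,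
        primeSum_eq_of_mem_trivOn F m χ ((hmem χ).mp hχ), primeSum_one_eq] :
      ∀ χ ∈ triv, χ ((a : ZMod m)⁻¹) * primeSum F m χ s =
        ((FrobDensity.primeSum F (unitPrimes F m) s : ℝ) : ℂ)),
      Finset.sum_const, nsmul_eq_mul]
  rw [hsplit] at hmain
  have hre := congrArg Complex.re hmain
  rw [Complex.add_re, ← Complex.ofReal_natCast, ← Complex.ofReal_mul, Complex.ofReal_re,
    ← Complex.ofReal_natCast (m.totient), ← Complex.ofReal_mul, Complex.ofReal_re,
    Complex.re_sum] at hre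
  have hrest : |∑ χ ∈ univ \ triv, (χ ((a : ZMod m)⁻¹) * primeSum F m χ s).re| ≤
      ∑ χ ∈ univ \ triv, B χ := by
    refine (Finset.abs_sum_le_sum_abs _ _).trans (Finset.sum_le_sum fun χ hχ => ?_)
    have hχt : χ ∉ trivOn H := fun h => (Finset.mem_sdiff.mp hχ).2 ((hmem χ).mpr h)
    refine (Complex.abs_re_le_norm _).trans ?_
    rw [norm_mul]
    calc ‖χ ((a : ZMod m)⁻¹)‖ * ‖primeSum F m χ s‖ ≤ 1 * ‖primeSum F m χ s‖ :=
          mul_le_mul_of_nonneg_right (DirichletCharacter.norm_le_one χ _) (norm_nonneg _)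
      _ = ‖primeSum F m χ s‖ := one_mul _
      _ ≤ B χ := hB χ hχt s hs hs2
  have hC1s := hC1 s hs hs2
  rw [one_mul] at hC1s
  rw [← classSum_eq_primeSum, le_div_iff₀ hφpos]
  have e : |classSum F m (a : ZMod m) s - 1 / (Module.finrank F M : ℝ) * FrobDensity.logPole s| *
      (m.totient : ℝ) =
      |(m.totient : ℝ) * classSum F m (a : ZMod m) s -
        (triv.card : ℝ) * FrobDensity.logPole s| := by
    rw [← abs_of_pos hφpos, ← abs_mul, abs_of_pos hφpos]
    congr 1
    rw [← hk]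
    field_simp
  rw [e, ← hre]
  have e2 : (triv.card : ℝ) * FrobDensity.primeSum F (unitPrimes F m) s +
      ∑ χ ∈ univ \ triv, (χ ((a : ZMod m)⁻¹) * primeSum F m χ s).re -
      (triv.card : ℝ) * FrobDensity.logPole s =
      (triv.card : ℝ) * (FrobDensity.primeSum F (unitPrimes F m) s - FrobDensity.logPole s) +
      ∑ χ ∈ univ \ triv, (χ ((a : ZMod m)⁻¹) * primeSum F m χ s).re := by ring
  rw [e2]
  refine (abs_add_le _ _).trans (add_le_add ?_ hrest)
  rw [abs_mul, abs_of_nonneg (Nat.cast_nonneg _)]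
  exact mul_le_mul_of_nonneg_left hC1s (Nat.cast_nonneg _)

end PrimeSums

end Fermat.Agent.Lib.CFT.ChebDensity.GenDirichlet
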