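/-
helper41 (P-S48 package CHEBOTAREV DENSITY).  Chebotarev's cyclotomic trick, density form:
in the tower `K ⊆ L ⊆ M = L(ζ_ℓ)` (`ℓ` prime), for `g ∈ Gal(M/K)` such that the order of `g|_L`
divides the order of `χ(g)`, the primes `Q` of `M` with Frobenius element `g` satisfy
`∑ N(Q ∩ K)^(-s) ≥ (1 / ord g) log (1/(s-1)) - C`.
-/
import Mathlib
import Fermat.Agent.Lib.CFT.ChebDensity.GenDirichlet
import Fermat.Agent.Lib.CFT.ChebDensity.FrobCount
import Fermat.Agent.Lib.CFT.Cheb.Crossing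
import Fermat.Agent.Lib.FrobDensity.Main

set_option autoImplicit false
set_option linter.unusedSectionVars false

namespace Fermat.Agent.Lib.CFT.ChebDensity.CrossLower

open NumberField IsDedekindDomain IntermediateField Polynomial
open Fermat.Agent.Lib.CFT.Unram Fermat.Agent.Lib.CFT.Unram.CrossingFields
open Fermat.Agent.Lib.CFT.Cheb Fermat.Agent.Lib.CFT.Cheb.Crossing
open Fermat.Agent.Lib.FrobDensity
open Fermat.Agent.Lib.CFT.ChebDensity.FrobCount Fermat.Agent.Lib.CFT.ChebDensity.GenDirichlet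

/-! ### A subgroup of a finite cyclic group is determined by its order -/

section Cyclic

variable {G : Type*} [CommGroup G] [Finite G] [IsCyclic G]

theorem mem_of_card_eq_orderOf (H : Subgroup G) (x : G) (h : Nat.card H = orderOf x) :
    x ∈ H := by
  classical
  have : Fintype G := Fintype.ofFinite G
  set t := orderOf x with ht
  have htpos : 0 < t := orderOf_pos x
  set T : Finset G := Finset.univ.filter fun a : G => a ^ t = 1 with hT
  have hTcard : T.card ≤ t := IsCyclic.card_pow_eq_one_le htpos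
  set HS : Finset G := Finset.univ.filter fun a : G => a ∈ H with hHS
  have hHScard : HS.card = t := by
    rw [← h, Nat.card_eq_fintype_card, Fintype.card_subtype]
  have hsub : HS ⊆ T := by
    intro a ha
    rw [hHS, Finset.mem_filter] at ha
    rw [hT, Finset.mem_filter]
    refine ⟨Finset.mem_univ _, ?_⟩
    have h1 : (⟨a, ha.2⟩ : H) ^ Nat.card H = 1 := pow_card_eq_one'
    rw [h] at h1
    exact congrArg Subtype.val h1
  have heq : HS = T := Finset.eq_of_subset_of_card_le hsub (by rw [hHScard]; exact hTcard)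
  have hx : x ∈ T := by
    rw [hT, Finset.mem_filter]
    exact ⟨Finset.mem_univ _, pow_orderOf_eq_one x⟩
  rw [← heq, hHS, Finset.mem_filter] at hx
  exact hx.2

end Cyclic

/-! ### The local step -/

section Local

variable (K L M : Type*) [Field K] [NumberField K] [Field L] [NumberField L] [Field M]
  [NumberField M] [Algebra K L] [Algebra L M] [Algebra K M] [IsScalarTower K L M]
  [IsGalois K L] [IsGalois K M] (ℓ : ℕ) [NeZero ℓ] [IsCyclotomicExtension {ℓ} L M]

/-- Let `g ∈ Gal(L(ζ_ℓ)/K)` fix pointwise an intermediate field `Fx` with `Fx(ζ_ℓ) = L(ζ_ℓ)`.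
Above every prime `𝔮` of `Fx` of absolute degree one, with norm congruent to `χ(g)` modulo `ℓ`
and lying over a prime of `K` which is unramified in `M`, there is a prime of `M` with Frobenius
element `g` over `K`. -/
theorem exists_mem_frobPrimes (Fx : IntermediateField K M)
    [hcyc : IsCyclotomicExtension {ℓ} Fx M] (g : Gal(M/K)) (hgF : ∀ y ∈ Fx, g y = y)
    (𝔮 : HeightOneSpectrum (𝓞 Fx)) (hpprime : (Ideal.absNorm 𝔮.asIdeal).Prime)
    (hmod : (Ideal.absNorm 𝔮.asIdeal : ZMod ℓ) = ((chi K L M ℓ g : (ZMod ℓ)ˣ) : ZMod ℓ))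
    (hram : underPrime K Fx 𝔮 ∉ ramSet K M) :
    ∃ Q : HeightOneSpectrum (𝓞 M), underPrime Fx M Q = 𝔮 ∧ Q ∈ frobPrimes K M g ∧
      Ideal.absNorm (underPrime K M Q).asIdeal = Ideal.absNorm 𝔮.asIdeal := by
  have h𝔮0 : 𝔮.asIdeal ≠ ⊥ := 𝔮.ne_bot
  have h𝔮p : 𝔮.asIdeal.IsPrime := 𝔮.isPrime
  obtain ⟨Q, -, hQp, hQ⟩ := Ideal.exists_ideal_over_prime_of_isIntegral (S := 𝓞 M)
    𝔮.asIdeal ⊥ (by simp [Ideal.comap_bot_of_injective _
      (FaithfulSMul.algebraMap_injective (𝓞 Fx) (𝓞 M))])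
  have hQu : Q.under (𝓞 Fx) = 𝔮.asIdeal := hQ
  have hQ0 : Q ≠ ⊥ := by
    rintro rfl
    apply h𝔮0
    rw [← hQu, Ideal.under_def, Ideal.comap_bot_of_injective _
      (FaithfulSMul.algebraMap_injective (𝓞 Fx) (𝓞 M))]
  have hcop : Nat.Coprime ℓ (Ideal.absNorm 𝔮.asIdeal) := by
    have hu : IsUnit ((Ideal.absNorm 𝔮.asIdeal : ℕ) : ZMod ℓ) := by
      rw [hmod]
      exact Units.isUnit _
    exact ((ZMod.isUnit_iff_coprime _ _).mp hu).symm
  have hℓQ : (ℓ : 𝓞 M) ∉ Q :=
    natCast_notMem_of_coprime_absNorm Fx M ℓ Q (by rw [hQu]; exact hcop)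
  have : Finite (𝓞 M ⧸ Q) := Ideal.finiteQuotientOfFreeOfNeBot Q hQ0
  obtain ⟨φ, hφ⟩ := IsArithFrobAt.exists_of_isInvariant (𝓞 Fx) Gal(M/Fx) Q
  have hζ := IsCyclotomicExtension.zeta_spec ℓ L M
  set ζ := IsCyclotomicExtension.zeta ℓ L M with hζdef
  have hφζ : φ ζ = ζ ^ Ideal.absNorm (Q.under (𝓞 Fx)) :=
    CycloFrob.apply_zeta_of_isArithFrobAt hζ hℓQ hφ
  have hfix : ∀ y : Fx, g (algebraMap Fx M y) = algebraMap Fx M y := by
    intro y
    exact hgF _ y.2
  let g' : Gal(M/Fx) := { (g : M ≃+* M) with commutes' := hfix }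
  have hgg' : ∀ x : M, g' x = g x := fun _ => rfl
  have hg'ζ : g' ζ = ζ ^ ((chi K L M ℓ g : (ZMod ℓ)ˣ) : ZMod ℓ).val := by
    rw [hgg']
    exact chi_spec_zeta K L M ℓ g
  have hφg' : φ = g' := by
    refine CycloFrob.eq_of_apply_zeta_eq_pow hζ hφζ hg'ζ ?_
    rw [hQu, hmod, ZMod.natCast_zmod_val]
  rw [hφg'] at hφ
  have hcardF : Nat.card (𝓞 Fx ⧸ Q.under (𝓞 Fx)) = Ideal.absNorm 𝔮.asIdeal := by
    rw [hQu, Ideal.absNorm_apply, Submodule.cardQuot_apply]
  have hcardK : Nat.card (𝓞 K ⧸ Q.under (𝓞 K)) = Ideal.absNorm 𝔮.asIdeal :=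
    natCard_quotient_under_eq Fx Q hQ0 hpprime hcardF
  have hgK : IsArithFrobAt (𝓞 K) g Q :=
    isArithFrobAt_of_intermediateField Fx g g' hgg' Q (hcardK.trans hcardF.symm) hφ
  let Q' : HeightOneSpectrum (𝓞 M) := ⟨Q, hQp, hQ0⟩
  have hQ'u : underPrime Fx M Q' = 𝔮 := HeightOneSpectrum.ext hQu
  have htower : underPrime K M Q' = underPrime K Fx 𝔮 := by
    apply HeightOneSpectrum.ext
    show Q.under (𝓞 K) = 𝔮.asIdeal.under (𝓞 K)
    rw [← hQu, Ideal.under_under]
  have hinert : Ideal.inertia Gal(M/K) Q = ⊥ := by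
    by_contra hne
    apply hram
    rw [← htower]
    exact ⟨Q, hQp, ⟨rfl⟩, hne⟩
  refine ⟨Q', hQ'u, ⟨hgK, hinert⟩, ?_⟩
  show Ideal.absNorm (Q.under (𝓞 K)) = _
  rw [Ideal.absNorm_apply, Submodule.cardQuot_apply]
  exact hcardK

end Local

/-! ### The lower bound -/

section Lower

universe u

variable (K L M : Type u) [Field K] [NumberField K] [Field L] [NumberField L] [Field M]
  [NumberField M] [Algebra K L] [Algebra L M] [Algebra K M] [IsScalarTower K L M]
  [IsGalois K L] [IsGalois K M] (ℓ : ℕ) [hℓ : Fact ℓ.Prime] [IsCyclotomicExtension {ℓ} L M]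

/-- **Chebotarev's trick, density form.** -/
theorem exists_lower_bound_wsum (g : Gal(M/K))
    (hg : orderOf (AlgEquiv.restrictNormalHom (F := K) (K₁ := M) L g) ∣
      orderOf (chi K L M ℓ g)) :
    ∃ C : ℝ, ∀ s : ℝ, 1 < s → s ≤ 2 →
      1 / (orderOf g : ℝ) * logPole s - C ≤ wsum K M g s := by
  classical
  have : NeZero ℓ := ⟨hℓ.out.ne_zero⟩
  have hfd : FiniteDimensional K M := finiteDimensional_top K L M ℓ
  have hinj : Function.Injective
      ((AlgEquiv.restrictNormalHom (F := K) (K₁ := M) L).prod (chi K L M ℓ)) :=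
    toProd_injective K L M ℓ
  have hH : Subgroup.zpowers g ⊓ (chi K L M ℓ).ker = ⊥ :=
    zpowers_inf_ker_eq_bot _ _ hinj g hg
  have hordg : orderOf g = orderOf (chi K L M ℓ g) :=
    orderOf_eq_of_prod_injective _ _ hinj g hg
  set Fx : IntermediateField K M := fixedField (Subgroup.zpowers g) with hFx
  have hcyc : IsCyclotomicExtension {ℓ} Fx M :=
    isCyclotomicExtension_fixedField K L M ℓ (Subgroup.zpowers g) hH
  have hfin : Module.finrank Fx M = orderOf g := by
    rw [hFx, IntermediateField.finrank_fixedField_eq_card, Nat.card_zpowers]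
  have hgF : ∀ y ∈ Fx, g y = y := fun y hy => hy ⟨g, Subgroup.mem_zpowers g⟩
  set τ : (ZMod ℓ)ˣ := chi K L M ℓ g with hτ
  -- `τ` is a norm residue
  have hτmem : τ ∈ normResidues Fx ℓ := by
    have hcard := card_normResidues Fx ℓ M
    rw [hfin, hordg] at hcard
    have : IsCyclic (ZMod ℓ)ˣ := inferInstance
    exact mem_of_card_eq_orderOf (LSeries.normResiduesSubgroup Fx ℓ) τ hcard
  -- the density of the primes of `Fx` with norm `≡ τ`
  have hD := hasLogDensity_normClass Fx ℓ M τ hτmem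
  rw [hfin] at hD
  -- remove the primes of degree `≥ 2` and the primes over the ramified primes
  have hB1 : HasLogDensity Fx (degOneSet Fx)ᶜ 0 := nonDegOneNull Fx
  have hB2fin : (underPrime K Fx ⁻¹' ramSet K M).Finite :=
    finite_preimage_underPrime K Fx (ramFinite K M)
  have hB2 : HasLogDensity Fx (underPrime K Fx ⁻¹' ramSet K M) 0 :=
    HasLogDensity.of_finite hB2fin
  set 𝒬 : Set (HeightOneSpectrum (𝓞 Fx)) :=
    (normClass Fx ℓ (τ : ZMod ℓ) \ (degOneSet Fx)ᶜ) \ (underPrime K Fx ⁻¹' ramSet K M) with h𝒬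
  have hDQ : HasLogDensity Fx 𝒬 (1 / (orderOf g : ℝ)) := (hD.diff_null hB1).diff_null hB2
  obtain ⟨C, hC⟩ := hDQ
  refine ⟨C, fun s hs hs2 => ?_⟩
  have h1 := (abs_le.mp (hC s hs hs2)).1
  -- comparison of the sums
  have hcomp : primeSum Fx 𝒬 s ≤ wsum K M g s := by
    have hsummW := summable_indicator_wterm K M hs (frobPrimes K M g)
    have hfib := hsummW.hasSum.tsum_fiberwise (underPrime Fx M)
    rw [wsum, ← hfib.tsum_eq, primeSum]
    refine (summable_indicator_pterm Fx hs 𝒬).tsum_le_tsum (fun 𝔮 => ?_) hfib.summable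
    have : Fintype (underPrime Fx M ⁻¹' {𝔮}) := (finite_fiber Fx M 𝔮).fintype
    rw [tsum_fintype]
    by_cases h𝔮 : 𝔮 ∈ 𝒬
    · rw [Set.indicator_of_mem h𝔮]
      obtain ⟨⟨hnc, hdeg⟩, hram⟩ := h𝔮
      have hdeg' : (Ideal.absNorm 𝔮.asIdeal).Prime := by
        by_contra hnp
        exact hdeg hnp
      obtain ⟨Q, hQu, hQf, hQN⟩ := exists_mem_frobPrimes K L M ℓ Fx g hgF 𝔮 hdeg' hnc hram
      have hterm : (frobPrimes K M g).indicator (wterm K M s) Q = pterm Fx s 𝔮 := by
        rw [Set.indicator_of_mem hQf]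
        unfold wterm pterm
        rw [hQN]
      calc pterm Fx s 𝔮 = (frobPrimes K M g).indicator (wterm K M s)
            ((⟨Q, hQu⟩ : (underPrime Fx M ⁻¹' {𝔮})) : HeightOneSpectrum (𝓞 M)) := hterm.symm
        _ ≤ ∑ Q' : (underPrime Fx M ⁻¹' {𝔮}),
            (frobPrimes K M g).indicator (wterm K M s) Q'.1 :=
          Finset.single_le_sum (f := fun Q' : (underPrime Fx M ⁻¹' {𝔮}) =>
            (frobPrimes K M g).indicator (wterm K M s) Q'.1)
            (fun Q' _ => Set.indicator_nonneg (fun Q _ => wterm_nonneg K M s Q) Q'.1)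
            (Finset.mem_univ _)
    · rw [Set.indicator_of_notMem h𝔮]
      exact Finset.sum_nonneg fun Q' _ =>
        Set.indicator_nonneg (fun Q _ => wterm_nonneg K M s Q) Q'.1
  linarith

end Lower

end Fermat.Agent.Lib.CFT.ChebDensity.CrossLower
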