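/-
helper41 (P-S48 package CHEBOTAREV DENSITY).  The Chebotarev density theorem in the Dirichlet
density form: for a Galois extension `L/K` of number fields and a conjugation-stable subset `C` of
`Gal(L/K)`, the primes of `K` whose Frobenius class lies in `C` satisfy
`∑ N(p)^(-s) / log (1/(s-1)) → #C / #Gal(L/K)` as `s → 1⁺`.  The lower bound holds for every
subset `C`.
-/
import Mathlib
import Fermat.Agent.Lib.CFT.ChebDensity.CrossLower
import Fermat.Agent.Lib.CFT.ChebDensity.GoodUnits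

set_option autoImplicit false
set_option linter.unusedSectionVars false

namespace Fermat.Agent.Lib.CFT.ChebDensity.Density

open NumberField IsDedekindDomain IntermediateField Polynomial Filter Topology
open Fermat.Agent.Lib.CFT.Unram Fermat.Agent.Lib.CFT.Unram.CrossingFields
open Fermat.Agent.Lib.CFT.Cheb Fermat.Agent.Lib.CFT.Cheb.Crossing
open Fermat.Agent.Lib.FrobDensity
open Fermat.Agent.Lib.CFT.ChebDensity.FrobCount
open scoped Pointwise

/-! ### The set of primes with Frobenius in `C` -/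

section Defs

variable (K L : Type*) [Field K] [NumberField K] [Field L] [NumberField L] [Algebra K L]
  [IsGalois K L]

/-- The primes `p` of `K` such that some element of `C` is a Frobenius element at some prime of
`L` over `p`. -/
def frobSet (C : Set Gal(L/K)) : Set (HeightOneSpectrum (𝓞 K)) :=
  {p | ∃ P : Ideal (𝓞 L), P.IsPrime ∧ P.LiesOver p.asIdeal ∧ ∃ σ ∈ C, IsArithFrobAt (𝓞 K) σ P}

theorem frobSet_mono {C D : Set Gal(L/K)} (h : C ⊆ D) : frobSet K L C ⊆ frobSet K L D := by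
  rintro p ⟨P, hP, hPp, σ, hσ, hfrob⟩
  exact ⟨P, hP, hPp, σ, h hσ, hfrob⟩

/-- Outside the ramified primes, the Frobenius class is well defined: the sets attached to a
conjugation-stable set and to a set disjoint from it can only meet in ramified primes. -/
theorem frobSet_inter_subset_ramSet {C D : Set Gal(L/K)}
    (hC : ∀ σ ∈ C, ∀ τ : Gal(L/K), τ * σ * τ⁻¹ ∈ C) (hCD : Disjoint C D) :
    frobSet K L C ∩ frobSet K L D ⊆ ramSet K L := by
  rintro p ⟨⟨P, hP, hPp, σ, hσC, hσ⟩, ⟨P', hP', hP'p, σ', hσ'D, hσ'⟩⟩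
  by_contra hram
  have hin : Ideal.inertia Gal(L/K) P' = ⊥ := by
    by_contra hne
    exact hram ⟨P', hP', hP'p, hne⟩
  obtain ⟨τ, hτ⟩ := Algebra.IsInvariant.exists_smul_of_under_eq (𝓞 K) (𝓞 L) Gal(L/K) P P'
    (hPp.over.symm.trans hP'p.over)
  have h1 : IsArithFrobAt (𝓞 K) (τ * σ * τ⁻¹) P' := by
    rw [hτ]
    exact hσ.conj τ
  have h2 : σ' * (τ * σ * τ⁻¹)⁻¹ ∈ Ideal.inertia Gal(L/K) P' := hσ'.mul_inv_mem_inertia h1
  rw [hin, Subgroup.mem_bot, mul_inv_eq_one] at h2
  have h3 : σ' ∈ C := h2 ▸ hC σ hσC τ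
  exact (Set.disjoint_left.mp hCD h3) hσ'D

end Defs

/-! ### The lower bound in a fixed tower `K ⊆ L ⊆ M = L(ζ_ℓ)` -/

section Tower

universe u

variable (K L M : Type u) [Field K] [NumberField K] [Field L] [NumberField L] [Field M]
  [NumberField M] [Algebra K L] [Algebra L M] [Algebra K M] [IsScalarTower K L M]
  [IsGalois K L] [IsGalois K M] (ℓ : ℕ) [hℓ : Fact ℓ.Prime] [IsCyclotomicExtension {ℓ} L M]

/-- Primes below a prime of `M` with Frobenius element restricting into `C` have Frobenius class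
in `C`. -/
theorem frobSetU_subset_frobSet (C : Set Gal(L/K)) (S : Set Gal(M/K))
    (hS : ∀ g ∈ S, AlgEquiv.restrictNormalHom (F := K) (K₁ := M) L g ∈ C) :
    frobSetU K M S ⊆ frobSet K L C := by
  rintro p ⟨Q, hQp, g, hgS, hQg⟩
  refine ⟨Q.asIdeal.under (𝓞 L), Ideal.IsPrime.under (𝓞 L) Q.asIdeal, ⟨?_⟩,
    AlgEquiv.restrictNormalHom (F := K) (K₁ := M) L g, hS g hgS,
    CycloFrob.isArithFrobAt_restrictNormalHom hQg.1⟩
  rw [Ideal.under_under, ← hQp]
  rfl

/-- The lower bound for a set `S` of elements of `Gal(M/K)` to which Chebotarev's trick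
applies. -/
theorem tower_lower_bound (C : Set Gal(L/K)) (S : Finset Gal(M/K))
    (hS : ∀ g ∈ S, AlgEquiv.restrictNormalHom (F := K) (K₁ := M) L g ∈ C ∧
      orderOf (AlgEquiv.restrictNormalHom (F := K) (K₁ := M) L g) ∣ orderOf (chi K L M ℓ g)) :
    ∃ C0 : ℝ, ∀ s : ℝ, 1 < s → s ≤ 2 →
      (S.card : ℝ) * logPole s - C0 ≤
        (Nat.card Gal(M/K) : ℝ) * primeSum K (frobSet K L C) s := by
  classical
  have hex : ∀ g : Gal(M/K), ∃ Cg : ℝ, g ∈ S → ∀ s : ℝ, 1 < s → s ≤ 2 →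
      1 / (orderOf g : ℝ) * logPole s - Cg ≤ wsum K M g s := by
    intro g
    by_cases hg : g ∈ S
    · obtain ⟨Cg, hCg⟩ := CrossLower.exists_lower_bound_wsum K L M ℓ g (hS g hg).2
      exact ⟨Cg, fun _ => hCg⟩
    · exact ⟨0, fun h => absurd h hg⟩
  choose Cg hCg using hex
  refine ⟨∑ g ∈ S, (orderOf g : ℝ) * Cg g, fun s hs hs2 => ?_⟩
  have h1 : (S.card : ℝ) * logPole s - ∑ g ∈ S, (orderOf g : ℝ) * Cg g ≤
      ∑ g ∈ S, (orderOf g : ℝ) * wsum K M g s := by
    have : (S.card : ℝ) * logPole s - ∑ g ∈ S, (orderOf g : ℝ) * Cg g =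
        ∑ g ∈ S, (logPole s - (orderOf g : ℝ) * Cg g) := by
      rw [Finset.sum_sub_distrib, Finset.sum_const, nsmul_eq_mul]
    rw [this]
    refine Finset.sum_le_sum fun g hg => ?_
    have hpos : (0 : ℝ) < orderOf g := by exact_mod_cast orderOf_pos g
    have h := hCg g hg s hs hs2
    have h' := mul_le_mul_of_nonneg_left h hpos.le
    have : (orderOf g : ℝ) * (1 / (orderOf g : ℝ) * logPole s - Cg g) =
        logPole s - (orderOf g : ℝ) * Cg g := by
      field_simp
    rw [this] at h'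
    exact h'
  have h2 := sum_orderOf_mul_wsum_le K M S hs
  have h3 : primeSum K (frobSetU K M (S : Set Gal(M/K))) s ≤ primeSum K (frobSet K L C) s :=
    primeSum_mono K hs (frobSetU_subset_frobSet K L M C _ fun g hg => (hS g hg).1)
  have hcard : (0 : ℝ) ≤ (Nat.card Gal(M/K) : ℝ) := Nat.cast_nonneg _
  calc (S.card : ℝ) * logPole s - ∑ g ∈ S, (orderOf g : ℝ) * Cg g
      ≤ ∑ g ∈ S, (orderOf g : ℝ) * wsum K M g s := h1
    _ ≤ (Nat.card Gal(M/K) : ℝ) * primeSum K (frobSetU K M (S : Set Gal(M/K))) s := h2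
    _ ≤ (Nat.card Gal(M/K) : ℝ) * primeSum K (frobSet K L C) s :=
        mul_le_mul_of_nonneg_left h3 hcard

/-- Counting: when `Φ_ℓ` is irreducible over `L` there are at least
`#C * #{τ ∈ (ℤ/ℓ)ˣ | n ∣ ord τ}` elements of `Gal(M/K)` to which the trick applies
(`n = #Gal(L/K)`). -/
theorem exists_finset_card_ge (hirr : Irreducible (cyclotomic ℓ L)) (C : Finset Gal(L/K))
    (T : Finset (ZMod ℓ)ˣ) (hT : ∀ τ ∈ T, Nat.card Gal(L/K) ∣ orderOf τ) :
    ∃ S : Finset Gal(M/K),
      (∀ g ∈ S, AlgEquiv.restrictNormalHom (F := K) (K₁ := M) L g ∈ C ∧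
        orderOf (AlgEquiv.restrictNormalHom (F := K) (K₁ := M) L g) ∣
          orderOf (chi K L M ℓ g)) ∧
      C.card * T.card ≤ S.card := by
  classical
  have : NeZero ℓ := ⟨hℓ.out.ne_zero⟩
  let e := prodEquiv K L M ℓ hirr
  refine ⟨(C ×ˢ T).image fun x => e.symm x, ?_, ?_⟩
  · intro g hg
    rw [Finset.mem_image] at hg
    obtain ⟨⟨σ, τ⟩, hx, rfl⟩ := hg
    rw [Finset.mem_product] at hx
    have h1 : toProd K L M ℓ (e.symm (σ, τ)) = (σ, τ) := by
      rw [← prodEquiv_apply K L M ℓ hirr]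
      exact e.apply_symm_apply _
    have h2 : AlgEquiv.restrictNormalHom (F := K) (K₁ := M) L (e.symm (σ, τ)) = σ :=
      congrArg Prod.fst h1
    have h3 : chi K L M ℓ (e.symm (σ, τ)) = τ := congrArg Prod.snd h1
    rw [h2, h3]
    exact ⟨hx.1, (orderOf_dvd_natCard σ).trans (hT τ hx.2)⟩
  · rw [Finset.card_image_of_injective _ e.symm.injective, Finset.card_product]

/-- The order of `Gal(M/K)`. -/
theorem natCard_gal_top (hirr : Irreducible (cyclotomic ℓ L)) :
    Nat.card Gal(M/K) = Nat.card Gal(L/K) * (ℓ - 1) := by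
  have : NeZero ℓ := ⟨hℓ.out.ne_zero⟩
  rw [Nat.card_congr (prodEquiv K L M ℓ hirr).toEquiv, Nat.card_prod, Nat.card_eq_fintype_card
    (α := (ZMod ℓ)ˣ), ZMod.card_units]

end Tower

/-! ### The density theorem -/

section Main

universe u

theorem logPole_nonneg {s : ℝ} (hs : 1 < s) (hs2 : s ≤ 2) : 0 ≤ logPole s := by
  unfold logPole
  apply Real.log_nonneg
  rw [le_div_iff₀ (by linarith)]
  linarith

variable (K L : Type u) [Field K] [NumberField K] [Field L] [NumberField L] [Algebra K L]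
  [IsGalois K L]

/-- **Chebotarev density theorem, lower bound**, valid for every subset `C` of the Galois
group. -/
theorem exists_lower_bound (C : Set Gal(L/K)) {ε : ℝ} (hε : 0 < ε) :
    ∃ C0 : ℝ, ∀ s : ℝ, 1 < s → s ≤ 2 →
      ((Nat.card C : ℝ) / (Nat.card Gal(L/K) : ℝ) - ε) * logPole s - C0 ≤
        primeSum K (frobSet K L C) s := by
  classical
  set n := Nat.card Gal(L/K) with hn
  have hnpos : 0 < n := Nat.card_pos
  obtain ⟨k0, hk0⟩ := pow_unbounded_of_one_lt ((n : ℝ) / ε) (one_lt_two)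
  set k := k0 + 1 with hk
  have hk2 : (n : ℝ) / ε < 2 ^ k := by
    refine hk0.trans_le ?_
    exact pow_le_pow_right₀ (by norm_num) (Nat.le_succ k0)
  obtain ⟨ℓ, hℓ, -, -, hirr, h1⟩ :=
    CyclotomicAux.exists_prime_irreducible_cyclotomic_modEq_one L (pow_ne_zero k hnpos.ne') ∅
  have : Fact ℓ.Prime := ⟨hℓ⟩
  have : NeZero ℓ := ⟨hℓ.ne_zero⟩
  have hdvd : n ^ k ∣ ℓ - 1 := (Nat.modEq_iff_dvd' hℓ.pos).1 h1.symm
  have : IsGalois K (CyclotomicField ℓ L) := isGalois_top K L (CyclotomicField ℓ L) ℓ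
  -- good units
  set T : Finset (ZMod ℓ)ˣ := Finset.univ.filter fun τ => n ∣ orderOf τ with hTdef
  set Bd : Finset (ZMod ℓ)ˣ := Finset.univ.filter fun τ => ¬ n ∣ orderOf τ with hBdef
  have hbad : Bd.card * 2 ^ k ≤ n * (ℓ - 1) := by
    have := GoodUnits.card_not_dvd_orderOf_mul_le (A := (ZMod ℓ)ˣ) (n := n) (k := k) hnpos.ne'
      (Nat.succ_le_succ (Nat.zero_le k0)) (by rw [ZMod.card_units]; exact hdvd)
    rwa [ZMod.card_units] at this
  have hTB : T.card + Bd.card = ℓ - 1 := by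
    rw [hTdef, hBdef, Finset.card_filter_add_card_filter_not, Finset.card_univ, ZMod.card_units]
  have : Fintype C := Fintype.ofFinite C
  obtain ⟨S, hS, hScard⟩ := exists_finset_card_ge K L (CyclotomicField ℓ L) ℓ hirr C.toFinset T
    (fun τ hτ => (Finset.mem_filter.mp hτ).2)
  obtain ⟨C0, hC0⟩ := tower_lower_bound K L (CyclotomicField ℓ L) ℓ C S
    (fun g hg => ⟨Set.mem_toFinset.mp (hS g hg).1, (hS g hg).2⟩)
  have hΓ := natCard_gal_top K L (CyclotomicField ℓ L) ℓ hirr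
  -- real numbers
  have hq1 : 1 ≤ ℓ - 1 := by have := hℓ.two_le; omega
  set q : ℝ := ((ℓ - 1 : ℕ) : ℝ) with hq
  have hqpos : 0 < q := by rw [hq]; exact_mod_cast hq1
  have hnR : (0 : ℝ) < n := by exact_mod_cast hnpos
  set c : ℝ := (Nat.card C : ℝ) with hc
  have hc0 : 0 ≤ c := Nat.cast_nonneg _
  have hcn : c ≤ n := by
    rw [hc]
    exact_mod_cast Nat.card_le_card_of_injective (Subtype.val : C → Gal(L/K))
      Subtype.val_injective
  have hCcard : C.toFinset.card = Nat.card C := by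
    rw [Set.toFinset_card, Nat.card_eq_fintype_card]
  have hS' : c * (T.card : ℝ) ≤ (S.card : ℝ) := by
    rw [hc, ← hCcard]
    exact_mod_cast hScard
  have hTB' : (T.card : ℝ) + (Bd.card : ℝ) = q := by rw [hq]; exact_mod_cast hTB
  have hbad' : (Bd.card : ℝ) * 2 ^ k ≤ n * q := by rw [hq]; exact_mod_cast hbad
  have hΓ' : ((Nat.card Gal(CyclotomicField ℓ L/K) : ℕ) : ℝ) = n * q := by
    rw [hΓ, hq]; push_cast; ring
  have hnq : 0 < (n : ℝ) * q := mul_pos hnR hqpos
  have h2k : (0 : ℝ) < 2 ^ k := by positivity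
  have hnε : (n : ℝ) < ε * 2 ^ k := by
    rw [div_lt_iff₀ hε] at hk2
    linarith
  -- the key inequality `c / n - ε ≤ #S / (n q)`
  have hkey : c / n - ε ≤ (S.card : ℝ) / (n * q) := by
    have h3 : c * (Bd.card : ℝ) / (n * q) ≤ ε := by
      rw [div_le_iff₀ hnq]
      have h4 : c * (Bd.card : ℝ) * 2 ^ k ≤ c * (n * q) := by
        rw [mul_assoc]
        exact mul_le_mul_of_nonneg_left hbad' hc0
      have h5 : c * (n * q) ≤ n * (n * q) := mul_le_mul_of_nonneg_right hcn hnq.le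
      have h6 : (n : ℝ) * (n * q) ≤ ε * 2 ^ k * (n * q) :=
        mul_le_mul_of_nonneg_right hnε.le hnq.le
      have h7 : c * (Bd.card : ℝ) * 2 ^ k ≤ ε * (n * q) * 2 ^ k := by
        calc c * (Bd.card : ℝ) * 2 ^ k ≤ c * (n * q) := h4
          _ ≤ n * (n * q) := h5
          _ ≤ ε * 2 ^ k * (n * q) := h6
          _ = ε * (n * q) * 2 ^ k := by ring
      exact le_of_mul_le_mul_right h7 h2k
    have h8 : c / n - c * (Bd.card : ℝ) / (n * q) = c * (T.card : ℝ) / (n * q) := by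
      have : (T.card : ℝ) = q - Bd.card := by linarith
      rw [this]
      field_simp
    have h9 : c * (T.card : ℝ) / (n * q) ≤ (S.card : ℝ) / (n * q) :=
      div_le_div_of_nonneg_right hS' hnq.le
    linarith
  refine ⟨C0 / (n * q), fun s hs hs2 => ?_⟩
  have hlp := logPole_nonneg hs hs2
  have hmain := hC0 s hs hs2
  rw [hΓ'] at hmain
  have h10 : ((S.card : ℝ) * logPole s - C0) / (n * q) ≤ primeSum K (frobSet K L C) s := by
    rw [div_le_iff₀ hnq]
    linarith
  have h11 : (c / n - ε) * logPole s ≤ (S.card : ℝ) / (n * q) * logPole s :=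
    mul_le_mul_of_nonneg_right hkey hlp
  have h12 : ((S.card : ℝ) * logPole s - C0) / (n * q) =
      (S.card : ℝ) / (n * q) * logPole s - C0 / (n * q) := by
    field_simp
  linarith

/-- **Chebotarev density theorem, upper bound**, for a conjugation-stable subset `C`. -/
theorem exists_upper_bound (C : Set Gal(L/K)) (hC : ∀ σ ∈ C, ∀ τ : Gal(L/K), τ * σ * τ⁻¹ ∈ C)
    {ε : ℝ} (hε : 0 < ε) :
    ∃ C0 : ℝ, ∀ s : ℝ, 1 < s → s ≤ 2 →
      primeSum K (frobSet K L C) s ≤
        ((Nat.card C : ℝ) / (Nat.card Gal(L/K) : ℝ) + ε) * logPole s + C0 := by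
  classical
  set n := Nat.card Gal(L/K) with hn
  have hnpos : 0 < n := Nat.card_pos
  have hnR : (0 : ℝ) < n := by exact_mod_cast hnpos
  obtain ⟨C1, hC1⟩ := exists_lower_bound K L Cᶜ hε
  obtain ⟨C2, hC2⟩ := hasLogDensity_univ K
  have hR : (ramSet K L).Finite := ramFinite K L
  set r : ℝ := (hR.toFinset.card : ℝ) with hr
  have hcard : (Nat.card C : ℝ) + (Nat.card (Cᶜ : Set Gal(L/K)) : ℝ) = n := by
    rw [Nat.card_coe_set_eq, Nat.card_coe_set_eq, hn]
    exact_mod_cast Set.ncard_add_ncard_compl C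
  refine ⟨C1 + C2 + 2 * r, fun s hs hs2 => ?_⟩
  have hs0 : 0 < s := by linarith
  have hlp := logPole_nonneg hs hs2
  -- splitting off the ramified primes
  have hsplit : ∀ A : Set (HeightOneSpectrum (𝓞 K)),
      primeSum K A s ≤ primeSum K (A \ ramSet K L) s + r := by
    intro A
    have h1 : A ⊆ (A \ ramSet K L) ∪ ramSet K L := by
      intro x hx
      by_cases hxr : x ∈ ramSet K L
      · exact Or.inr hxr
      · exact Or.inl ⟨hx, hxr⟩
    have h2 := primeSum_mono K hs h1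
    rw [primeSum_union K hs Set.disjoint_sdiff_left] at h2
    have h3 := primeSum_finite_le K hs0 hR
    linarith
  have hdisj : Disjoint (frobSet K L C \ ramSet K L) (frobSet K L Cᶜ \ ramSet K L) := by
    rw [Set.disjoint_left]
    rintro p ⟨hpC, hpr⟩ ⟨hpD, -⟩
    exact hpr (frobSet_inter_subset_ramSet K L hC disjoint_compl_right ⟨hpC, hpD⟩)
  have h4 : primeSum K (frobSet K L C \ ramSet K L) s +
      primeSum K (frobSet K L Cᶜ \ ramSet K L) s ≤ primeSum K Set.univ s := by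
    rw [← primeSum_union K hs hdisj]
    exact primeSum_mono K hs (Set.subset_univ _)
  have h5 := hsplit (frobSet K L C)
  have h6 := hsplit (frobSet K L Cᶜ)
  have h7 := hC1 s hs hs2
  have h8 := (abs_le.mp (hC2 s hs hs2)).2
  have h9 : (Nat.card (Cᶜ : Set Gal(L/K)) : ℝ) / n = 1 - (Nat.card C : ℝ) / n := by
    rw [eq_sub_iff_add_eq, ← add_div, add_comm, hcard, div_self hnR.ne']
  rw [h9] at h7
  nlinarith [h4, h5, h6, h7, h8, hlp]

/-- **Chebotarev density theorem** (Dirichlet density): for a conjugation-stable subset `C` of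
the Galois group of a Galois extension `L/K` of number fields,
`∑_{Frob_p ∈ C} N(p)^(-s) / log (1/(s-1)) → #C / #Gal(L/K)` as `s → 1⁺`. -/
theorem chebotarev_density (C : Set Gal(L/K)) (hC : ∀ σ ∈ C, ∀ τ : Gal(L/K), τ * σ * τ⁻¹ ∈ C) :
    Tendsto (fun s : ℝ => primeSum K (frobSet K L C) s / logPole s) (𝓝[>] (1 : ℝ))
      (𝓝 ((Nat.card C : ℝ) / (Nat.card Gal(L/K) : ℝ))) := by
  rw [Metric.tendsto_nhds]
  intro ε hε
  obtain ⟨C1, hC1⟩ := exists_lower_bound K L C (half_pos hε)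
  obtain ⟨C2, hC2⟩ := exists_upper_bound K L C hC (half_pos hε)
  have hev : ∀ᶠ s in 𝓝[>] (1 : ℝ), (|C1| + |C2| + 1) / (ε / 2) < logPole s :=
    tendsto_logPole.eventually_gt_atTop _
  filter_upwards [hev, NonVanishing.Ioc_mem_nhdsGT_one] with s hs1 hs2
  have hpos : 0 < (|C1| + |C2| + 1) / (ε / 2) := by positivity
  have hlp : 0 < logPole s := hpos.trans hs1
  have hlt : |C1| + |C2| + 1 < ε / 2 * logPole s := by
    rw [div_lt_iff₀ (half_pos hε)] at hs1
    linarith
  have h1 := hC1 s hs2.1 hs2.2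
  have h2 := hC2 s hs2.1 hs2.2
  rw [Real.dist_eq, abs_lt]
  have hC1' := le_abs_self C1
  have hC2' := le_abs_self C2
  have hC1'' := abs_nonneg C1
  have hC2'' := abs_nonneg C2
  constructor
  · rw [lt_sub_iff_add_lt, lt_div_iff₀ hlp]
    nlinarith
  · rw [sub_lt_iff_lt_add, div_lt_iff₀ hlp]
    nlinarith

end Main

end Fermat.Agent.Lib.CFT.ChebDensity.Density
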