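/-
helper41 (P-S48 package CHEBOTAREV DENSITY).  The Chebotarev density theorem over `ℚ` in the
language of the Prelude (valuation subrings of `ℚ̄`, Frobenius lifts), in the two shapes consumed by
the Deligne–Serre assembly:

* `card_le_of_sum_le` (D2): if the primes whose Frobenius (on a finite Galois `E/ℚ`) lies in `B`
  belong, outside a finite set, to a set `X` of primes of upper Dirichlet density at most `c`,
  then `#B ≤ c * #Gal(E/ℚ)`;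
* `exists_finset_sum_ge` (D3): for a non-negative function `ψ` on `Gal(E/ℚ)` and `F : ℕ → ℝ` with
  `F p = ψ (Frob_p)`, finite sums `∑_{p ∈ P} F p * p^(-s)` are at least
  `(mean ψ - ε) * log (1/(s-1)) - C`.
-/
import Mathlib
import Fermat.Agent.Lib.CFT.ChebDensity.Density
import Fermat.Agent.Lib.CFT.Cheb.Bridge
import Fermat.Agent.Lib.FrobDensity.Main

set_option autoImplicit false
set_option linter.unusedSectionVars false

namespace Fermat.Agent.Lib.CFT.ChebDensity.Bridge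

open NumberField IsDedekindDomain Filter Topology
open Fermat.Agent.Lib.FrobDensity
open Fermat.Agent.Lib.CFT.ChebDensity.Density

local notation "Qb" => AlgebraicClosure ℚ

/-! ### Finite sums and `primeSum` -/

section Finite

variable (K : Type*) [Field K] [NumberField K]

theorem sum_le_primeSum (A : Set (HeightOneSpectrum (𝓞 K))) {s : ℝ} (hs : 1 < s)
    (T : Finset (HeightOneSpectrum (𝓞 K))) (hT : ∀ 𝔭 ∈ T, 𝔭 ∈ A) :
    ∑ 𝔭 ∈ T, pterm K s 𝔭 ≤ primeSum K A s := by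
  have h1 : ∑ 𝔭 ∈ T, pterm K s 𝔭 = ∑ 𝔭 ∈ T, A.indicator (pterm K s) 𝔭 :=
    Finset.sum_congr rfl fun 𝔭 h𝔭 => (Set.indicator_of_mem (hT 𝔭 h𝔭) _).symm
  rw [h1]
  exact (summable_indicator_pterm K hs A).sum_le_tsum T
    (fun 𝔭 _ => Set.indicator_nonneg (fun 𝔭 _ => pterm_nonneg K s 𝔭) 𝔭)

theorem exists_finset_sum_ge_primeSum (A : Set (HeightOneSpectrum (𝓞 K))) {s : ℝ} (hs : 1 < s)
    {δ : ℝ} (hδ : 0 < δ) :
    ∃ T : Finset (HeightOneSpectrum (𝓞 K)), (∀ 𝔭 ∈ T, 𝔭 ∈ A) ∧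
      primeSum K A s - δ ≤ ∑ 𝔭 ∈ T, pterm K s 𝔭 := by
  classical
  by_contra hcon
  push Not at hcon
  have h1 : primeSum K A s ≤ primeSum K A s - δ := by
    unfold primeSum
    refine (summable_indicator_pterm K hs A).tsum_le_of_sum_le fun u => ?_
    have h2 : ∑ 𝔭 ∈ u, A.indicator (pterm K s) 𝔭 = ∑ 𝔭 ∈ u.filter (· ∈ A), pterm K s 𝔭 := by
      rw [Finset.sum_filter]
      refine Finset.sum_congr rfl fun 𝔭 _ => ?_
      by_cases h : 𝔭 ∈ A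
      · rw [Set.indicator_of_mem h, if_pos h]
      · rw [Set.indicator_of_notMem h, if_neg h]
    rw [h2]
    exact (hcon (u.filter (· ∈ A)) fun 𝔭 h𝔭 => (Finset.mem_filter.mp h𝔭).2).le
  linarith

end Finite

/-! ### The primes of `ℚ` -/

section Rat

theorem finrank_int_ringOfIntegers_rat : Module.finrank ℤ (𝓞 ℚ) = 1 := by
  rw [RingOfIntegers.rank, Module.finrank_self]

/-- A prime of `𝓞 ℚ` containing the rational prime `p` is generated by `p`. -/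
theorem asIdeal_eq_span_of_mem {p : ℕ} (hp : p.Prime) (𝔭 : HeightOneSpectrum (𝓞 ℚ))
    (h : (p : 𝓞 ℚ) ∈ 𝔭.asIdeal) : 𝔭.asIdeal = Ideal.span {(p : 𝓞 ℚ)} := by
  have hN : Ideal.absNorm (Ideal.span {(p : 𝓞 ℚ)}) = p := by
    rw [Ideal.absNorm_span_natCast, finrank_int_ringOfIntegers_rat, pow_one]
  have hprime : (Ideal.span {(p : 𝓞 ℚ)}).IsPrime :=
    Ideal.isPrime_of_irreducible_absNorm (by rw [hN]; exact hp)
  have hne : Ideal.span {(p : 𝓞 ℚ)} ≠ ⊥ := by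
    intro h0
    rw [h0, Ideal.absNorm_bot] at hN
    exact hp.ne_zero hN.symm
  have hmax : (Ideal.span {(p : 𝓞 ℚ)}).IsMaximal := hprime.isMaximal hne
  exact (hmax.eq_of_le 𝔭.isPrime.ne_top ((Ideal.span_singleton_le_iff_mem _).mpr h)).symm

/-- The absolute norm is injective on the primes of `𝓞 ℚ` of prime norm. -/
theorem eq_of_absNorm_eq {𝔭 𝔮 : HeightOneSpectrum (𝓞 ℚ)} (h𝔭 : 𝔭 ∈ degOneSet ℚ)
    (h : Ideal.absNorm 𝔭.asIdeal = Ideal.absNorm 𝔮.asIdeal) : 𝔭 = 𝔮 := by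
  have h1 := asIdeal_eq_span_of_mem h𝔭 𝔭 (Ideal.absNorm_mem _)
  have h2 := asIdeal_eq_span_of_mem h𝔭 𝔮 (by rw [h]; exact Ideal.absNorm_mem _)
  exact HeightOneSpectrum.ext (h1.trans h2.symm)

/-- The exceptional set: primes of non-prime norm, and primes with norm in the finite set `S`. -/
def badSet (S : Finset ℕ) : Set (HeightOneSpectrum (𝓞 ℚ)) :=
  (degOneSet ℚ)ᶜ ∪ {𝔭 | Ideal.absNorm 𝔭.asIdeal ∈ S}

theorem finite_absNorm_mem (S : Finset ℕ) :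
    {𝔭 : HeightOneSpectrum (𝓞 ℚ) | Ideal.absNorm 𝔭.asIdeal ∈ S}.Finite := by
  have h1 : {𝔭 : HeightOneSpectrum (𝓞 ℚ) | Ideal.absNorm 𝔭.asIdeal ∈ S} =
      ⋃ n ∈ S, (fun 𝔭 : HeightOneSpectrum (𝓞 ℚ) => 𝔭.asIdeal) ⁻¹'
        {I : Ideal (𝓞 ℚ) | Ideal.absNorm I = n} := by
    ext 𝔭
    simp
  rw [h1]
  refine Set.Finite.biUnion S.finite_toSet fun n _ => ?_
  exact (Ideal.finite_setOfPred_absNorm_eq (S := 𝓞 ℚ) n).preimage
    (fun 𝔭 _ 𝔮 _ h => HeightOneSpectrum.ext h)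

theorem exists_bound_badSet (S : Finset ℕ) :
    ∃ C : ℝ, ∀ s : ℝ, 1 < s → s ≤ 2 → primeSum ℚ (badSet S) s ≤ C := by
  have h1 : HasLogDensity ℚ (degOneSet ℚ)ᶜ 0 := nonDegOneNull ℚ
  have h2 : HasLogDensity ℚ
      ({𝔭 : HeightOneSpectrum (𝓞 ℚ) | Ideal.absNorm 𝔭.asIdeal ∈ S} \ (degOneSet ℚ)ᶜ) 0 :=
    HasLogDensity.of_finite (K := ℚ) ((finite_absNorm_mem S).subset Set.sdiff_subset)
  have h3 := h1.union h2 Set.disjoint_sdiff_right
  have h4 : badSet S = (degOneSet ℚ)ᶜ ∪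
      ({𝔭 : HeightOneSpectrum (𝓞 ℚ) | Ideal.absNorm 𝔭.asIdeal ∈ S} \ (degOneSet ℚ)ᶜ) := by
    unfold badSet
    rw [Set.union_sdiff_self]
  rw [← h4, add_zero] at h3
  obtain ⟨C, hC⟩ := h3
  refine ⟨C, fun s hs hs2 => ?_⟩
  have := (abs_le.mp (hC s hs hs2)).2
  linarith

/-- Removing the exceptional set costs a bounded amount. -/
theorem primeSum_le_diff_badSet (S : Finset ℕ) :
    ∃ C : ℝ, ∀ (A : Set (HeightOneSpectrum (𝓞 ℚ))) (s : ℝ), 1 < s → s ≤ 2 →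
      primeSum ℚ A s ≤ primeSum ℚ (A \ badSet S) s + C := by
  obtain ⟨C, hC⟩ := exists_bound_badSet S
  refine ⟨C, fun A s hs hs2 => ?_⟩
  have h1 : A ⊆ (A \ badSet S) ∪ badSet S := by
    intro x hx
    by_cases hxr : x ∈ badSet S
    · exact Or.inr hxr
    · exact Or.inl ⟨hx, hxr⟩
  have h2 := primeSum_mono ℚ hs h1
  rw [primeSum_union ℚ hs Set.disjoint_sdiff_left] at h2
  have h3 := hC s hs hs2
  linarith

/-- Sums over finite sets of degree one primes of `𝓞 ℚ` are sums over rational primes. -/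
theorem sum_pterm_eq (T : Finset (HeightOneSpectrum (𝓞 ℚ))) (hT : ∀ 𝔭 ∈ T, 𝔭 ∈ degOneSet ℚ)
    (G : ℕ → ℝ) (s : ℝ) :
    ∑ 𝔭 ∈ T, G (Ideal.absNorm 𝔭.asIdeal) * pterm ℚ s 𝔭 =
      ∑ p ∈ T.image (fun 𝔭 => Ideal.absNorm 𝔭.asIdeal), G p * (p : ℝ) ^ (-s) := by
  classical
  rw [Finset.sum_image]
  · rfl
  · intro 𝔭 h𝔭 𝔮 _ h
    exact eq_of_absNorm_eq (hT 𝔭 h𝔭) h

end Rat

/-! ### From arithmetic Frobenius elements to Frobenius lifts -/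

section Frob

variable (E : IntermediateField ℚ Qb) [FiniteDimensional ℚ E] [IsGalois ℚ E]

open Fermat.Agent.Lib.CFT.S14 in
/-- A degree one prime of `ℚ` whose Frobenius class meets `B` carries a Frobenius lift (in the
sense of the Prelude) restricting to an element of `B`. -/
theorem exists_frobenius_of_mem_frobSet (B : Set Gal(E/ℚ)) (𝔭 : HeightOneSpectrum (𝓞 ℚ))
    (h𝔭 : 𝔭 ∈ frobSet ℚ E B) (hdeg : 𝔭 ∈ degOneSet ℚ) :
    ∃ σ ∈ B, ∃ A : ValuationSubring Qb, A.LiesOverPrime (Ideal.absNorm 𝔭.asIdeal) ∧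
      ∃ φ : Qb ≃ₐ[ℚ] Qb, A.IsFrobeniusAt φ (Ideal.absNorm 𝔭.asIdeal) ∧
        AlgEquiv.restrictNormalHom E φ = σ := by
  have := Fermat.Agent.Lib.isGalois_algebraicClosure_rat
  obtain ⟨P, hP, hPp, σ, hσB, hfrob⟩ := h𝔭
  set p := Ideal.absNorm 𝔭.asIdeal with hp
  have hpp : p.Prime := hdeg
  have hunder : P.under (𝓞 ℚ) = 𝔭.asIdeal := hPp.over.symm
  have hcard : Nat.card (𝓞 ℚ ⧸ P.under (𝓞 ℚ)) = p := by
    rw [hunder, hp, Ideal.absNorm_apply, Submodule.cardQuot_apply]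
  have hpP : (p : 𝓞 E) ∈ P := by
    have h1 : ((p : ℕ) : 𝓞 ℚ) ∈ P.under (𝓞 ℚ) := by
      rw [hunder]
      exact Ideal.absNorm_mem _
    rw [Ideal.under_def, Ideal.mem_comap, map_natCast] at h1
    exact h1
  have hs : ∀ x : 𝓞 E, σ • x - x ^ p ∈ P := by
    intro x
    have := hfrob x
    rw [hcard] at this
    exact this
  obtain ⟨A, hA, φ, hφ, hres⟩ :=
    Fermat.Agent.Lib.CFT.Cheb.Bridge.exists_frobenius_lift_aux E P hP hpp hpP σ hs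
  exact ⟨σ, hσB, A, hA, φ, hφ, hres⟩

end Frob

/-! ### The two density statements -/

section Main

variable (E : IntermediateField ℚ Qb) [FiniteDimensional ℚ E] [IsGalois ℚ E]

/-- **(D2)** Let `B ⊆ Gal(E/ℚ)` and let `X` be a set of primes whose finite sums
`∑_{p ∈ P} p^(-s)` are at most `c * log (1/(s-1)) + C'`.  If every prime `p ∉ S` carrying a
Frobenius lift restricting into `B` belongs to `X`, then `#B ≤ c * #Gal(E/ℚ)`. -/
theorem card_le_of_sum_le (B : Set Gal(E/ℚ)) (X : Set ℕ) (S : Finset ℕ) (c C' : ℝ)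
    (hX : ∀ s : ℝ, 1 < s → s ≤ 2 → ∀ P : Finset ℕ, (∀ p ∈ P, p.Prime ∧ p ∈ X) →
      ∑ p ∈ P, (p : ℝ) ^ (-s) ≤ c * Real.log (1 / (s - 1)) + C')
    (hFrob : ∀ p : ℕ, p.Prime → p ∉ S → ∀ A : ValuationSubring Qb, A.LiesOverPrime p →
      ∀ φ : Qb ≃ₐ[ℚ] Qb, A.IsFrobeniusAt φ p → AlgEquiv.restrictNormalHom E φ ∈ B → p ∈ X) :
    (Nat.card B : ℝ) ≤ c * (Nat.card Gal(E/ℚ) : ℝ) := by
  classical
  set n := Nat.card Gal(E/ℚ) with hn
  have hnpos : 0 < n := Nat.card_pos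
  have hnR : (0 : ℝ) < n := by exact_mod_cast hnpos
  obtain ⟨Cb, hCb⟩ := primeSum_le_diff_badSet S
  -- the upper bound for the prime sum
  have hup : ∀ s : ℝ, 1 < s → s ≤ 2 →
      primeSum ℚ (frobSet ℚ E B \ badSet S) s ≤ c * logPole s + C' := by
    intro s hs hs2
    unfold primeSum
    refine (summable_indicator_pterm ℚ hs _).tsum_le_of_sum_le fun u => ?_
    set T := u.filter (· ∈ frobSet ℚ E B \ badSet S) with hT
    have hTmem : ∀ 𝔭 ∈ T, 𝔭 ∈ frobSet ℚ E B \ badSet S := fun 𝔭 h𝔭 =>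
      (Finset.mem_filter.mp h𝔭).2
    have hTdeg : ∀ 𝔭 ∈ T, 𝔭 ∈ degOneSet ℚ := by
      intro 𝔭 h𝔭
      by_contra hcon
      exact (hTmem 𝔭 h𝔭).2 (Or.inl hcon)
    have h2 : ∑ 𝔭 ∈ u, (frobSet ℚ E B \ badSet S).indicator (pterm ℚ s) 𝔭 =
        ∑ 𝔭 ∈ T, pterm ℚ s 𝔭 := by
      rw [hT, Finset.sum_filter]
      refine Finset.sum_congr rfl fun 𝔭 _ => ?_
      by_cases h : 𝔭 ∈ frobSet ℚ E B \ badSet S
      · rw [Set.indicator_of_mem h, if_pos h]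
      · rw [Set.indicator_of_notMem h, if_neg h]
    have h3 := sum_pterm_eq T hTdeg (fun _ => 1) s
    simp only [one_mul] at h3
    rw [h2, h3]
    refine hX s hs hs2 _ fun p hp => ?_
    obtain ⟨𝔭, h𝔭T, rfl⟩ := Finset.mem_image.mp hp
    have hmem := hTmem 𝔭 h𝔭T
    have hdeg := hTdeg 𝔭 h𝔭T
    have hnotS : Ideal.absNorm 𝔭.asIdeal ∉ S := fun hS => hmem.2 (Or.inr hS)
    obtain ⟨σ, hσB, A, hA, φ, hφ, hres⟩ := exists_frobenius_of_mem_frobSet E B 𝔭 hmem.1 hdeg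
    exact ⟨hdeg, hFrob _ hdeg hnotS A hA φ hφ (hres ▸ hσB)⟩
  -- for every `ε`
  have hε : ∀ ε : ℝ, 0 < ε → (Nat.card B : ℝ) / n ≤ c + ε := by
    intro ε hε
    obtain ⟨C0, hC0⟩ := exists_lower_bound ℚ E B hε
    by_contra hcon
    push Not at hcon
    set a : ℝ := (Nat.card B : ℝ) / n - ε - c with ha
    have hapos : 0 < a := by rw [ha]; linarith
    have hbound : ∀ s : ℝ, 1 < s → s ≤ 2 → a * logPole s ≤ C0 + Cb + C' := by
      intro s hs hs2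
      have h1 := hC0 s hs hs2
      have h2 := hCb (frobSet ℚ E B) s hs hs2
      have h3 := hup s hs hs2
      have h4 : a * logPole s = ((Nat.card B : ℝ) / n - ε) * logPole s - c * logPole s := by
        rw [ha]; ring
      linarith
    have hev : ∀ᶠ s in 𝓝[>] (1 : ℝ), (C0 + Cb + C') / a < logPole s :=
      tendsto_logPole.eventually_gt_atTop _
    obtain ⟨s, hs1, hs2⟩ :=
      (hev.and (Ioc_mem_nhdsGT (by norm_num : (1 : ℝ) < 2))).exists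
    have h5 := hbound s hs2.1 hs2.2
    rw [div_lt_iff₀ hapos] at hs1
    linarith
  have h6 : (Nat.card B : ℝ) / n ≤ c := le_of_forall_pos_le_add hε
  rwa [div_le_iff₀ hnR] at h6

/-- **(D3)** Let `ψ ≥ 0` be a function on `Gal(E/ℚ)` and `F : ℕ → ℝ` such that `F p = ψ (φ|_E)`
for every Frobenius lift `φ` at every place over every prime `p ∉ S`.  Then for `s ∈ (1,2]` there
are finite sets `P` of primes outside `S` with
`(mean ψ - ε) * log (1/(s-1)) - C ≤ ∑_{p ∈ P} F p * p^(-s)`. -/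
theorem exists_finset_sum_ge [Fintype Gal(E/ℚ)] (ψ : Gal(E/ℚ) → ℝ) (hψ : ∀ σ, 0 ≤ ψ σ)
    (F : ℕ → ℝ) (S : Finset ℕ)
    (hF : ∀ p : ℕ, p.Prime → p ∉ S → ∀ A : ValuationSubring Qb, A.LiesOverPrime p →
      ∀ φ : Qb ≃ₐ[ℚ] Qb, A.IsFrobeniusAt φ p → F p = ψ (AlgEquiv.restrictNormalHom E φ))
    {ε : ℝ} (hε : 0 < ε) :
    ∃ C'' : ℝ, ∀ s : ℝ, 1 < s → s ≤ 2 → ∃ P : Finset ℕ, (∀ p ∈ P, p.Prime ∧ p ∉ S) ∧
      ((∑ σ, ψ σ) / (Nat.card Gal(E/ℚ) : ℝ) - ε) * Real.log (1 / (s - 1)) - C'' ≤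
        ∑ p ∈ P, F p * (p : ℝ) ^ (-s) := by
  classical
  set n := Nat.card Gal(E/ℚ) with hn
  set V : Finset ℝ := Finset.univ.image ψ with hV
  have hVnonneg : ∀ v ∈ V, 0 ≤ v := by
    intro v hv
    obtain ⟨σ, -, rfl⟩ := Finset.mem_image.mp hv
    exact hψ σ
  set Bv : ℝ → Set Gal(E/ℚ) := fun v => {σ | ψ σ = v} with hBv
  set Sv : ℝ := ∑ v ∈ V, v with hSv
  have hSv0 : 0 ≤ Sv := Finset.sum_nonneg hVnonneg
  set ε' : ℝ := ε / (1 + Sv) with hε'def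
  have hε' : 0 < ε' := by rw [hε'def]; positivity
  have hex : ∀ v : ℝ, ∃ C0 : ℝ, ∀ s : ℝ, 1 < s → s ≤ 2 →
      ((Nat.card (Bv v) : ℝ) / n - ε') * logPole s - C0 ≤
        primeSum ℚ (frobSet ℚ E (Bv v)) s := fun v => exists_lower_bound ℚ E (Bv v) hε'
  choose C0 hC0 using hex
  obtain ⟨Cb, hCb⟩ := primeSum_le_diff_badSet S
  refine ⟨∑ v ∈ V, v * (C0 v + Cb + 1), fun s hs hs2 => ?_⟩
  -- finite sets of primes
  have hexT : ∀ v : ℝ, ∃ T : Finset (HeightOneSpectrum (𝓞 ℚ)),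
      (∀ 𝔭 ∈ T, 𝔭 ∈ frobSet ℚ E (Bv v) \ badSet S) ∧
        primeSum ℚ (frobSet ℚ E (Bv v) \ badSet S) s - 1 ≤ ∑ 𝔭 ∈ T, pterm ℚ s 𝔭 :=
    fun v => exists_finset_sum_ge_primeSum ℚ _ hs one_pos
  choose T hTmem hTsum using hexT
  have hFT : ∀ v : ℝ, ∀ 𝔭 ∈ T v, 𝔭 ∈ degOneSet ℚ ∧ Ideal.absNorm 𝔭.asIdeal ∉ S ∧
      F (Ideal.absNorm 𝔭.asIdeal) = v := by
    intro v 𝔭 h𝔭
    have hmem := hTmem v 𝔭 h𝔭
    have hdeg : 𝔭 ∈ degOneSet ℚ := by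
      by_contra hcon
      exact hmem.2 (Or.inl hcon)
    have hnotS : Ideal.absNorm 𝔭.asIdeal ∉ S := fun hS => hmem.2 (Or.inr hS)
    obtain ⟨σ, hσB, A, hA, φ, hφ, hres⟩ :=
      exists_frobenius_of_mem_frobSet E (Bv v) 𝔭 hmem.1 hdeg
    refine ⟨hdeg, hnotS, ?_⟩
    rw [hF _ hdeg hnotS A hA φ hφ, hres]
    exact hσB
  set U : Finset (HeightOneSpectrum (𝓞 ℚ)) := V.biUnion T with hU
  have hUdeg : ∀ 𝔭 ∈ U, 𝔭 ∈ degOneSet ℚ := by
    intro 𝔭 h𝔭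
    obtain ⟨v, -, h𝔭v⟩ := Finset.mem_biUnion.mp h𝔭
    exact (hFT v 𝔭 h𝔭v).1
  refine ⟨U.image (fun 𝔭 => Ideal.absNorm 𝔭.asIdeal), ?_, ?_⟩
  · intro p hp
    obtain ⟨𝔭, h𝔭U, rfl⟩ := Finset.mem_image.mp hp
    obtain ⟨v, -, h𝔭⟩ := Finset.mem_biUnion.mp h𝔭U
    exact ⟨(hFT v 𝔭 h𝔭).1, (hFT v 𝔭 h𝔭).2.1⟩
  · rw [← sum_pterm_eq U hUdeg F s]
    have hdisj : (V : Set ℝ).PairwiseDisjoint T := by
      intro v _ w _ hvw
      rw [Function.onFun, Finset.disjoint_left]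
      intro 𝔭 h1 h2
      exact hvw ((hFT v 𝔭 h1).2.2.symm.trans (hFT w 𝔭 h2).2.2)
    rw [hU, Finset.sum_biUnion hdisj]
    have hinner : ∀ v ∈ V, ∑ 𝔭 ∈ T v, F (Ideal.absNorm 𝔭.asIdeal) * pterm ℚ s 𝔭 =
        v * ∑ 𝔭 ∈ T v, pterm ℚ s 𝔭 := by
      intro v _
      rw [Finset.mul_sum]
      exact Finset.sum_congr rfl fun 𝔭 h => by rw [(hFT v 𝔭 h).2.2]
    rw [Finset.sum_congr rfl hinner]
    have hlp := logPole_nonneg hs hs2
    have hv : ∀ v ∈ V, v * (((Nat.card (Bv v) : ℝ) / n - ε') * logPole s - C0 v - Cb - 1) ≤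
        v * ∑ 𝔭 ∈ T v, pterm ℚ s 𝔭 := by
      intro v hvV
      refine mul_le_mul_of_nonneg_left ?_ (hVnonneg v hvV)
      have h1 := hC0 v s hs hs2
      have h2 := hCb (frobSet ℚ E (Bv v)) s hs hs2
      have h3 := hTsum v
      linarith
    have hsum := Finset.sum_le_sum hv
    -- the mean of `ψ`
    have hmean : ∑ v ∈ V, v * (Nat.card (Bv v) : ℝ) = ∑ σ, ψ σ := by
      rw [← Finset.sum_fiberwise_of_maps_to (s := Finset.univ) (t := V) (g := ψ)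
        (fun σ _ => Finset.mem_image_of_mem ψ (Finset.mem_univ σ)) ψ]
      refine Finset.sum_congr rfl fun v _ => ?_
      have h1 : ∑ σ ∈ Finset.univ.filter (fun σ => ψ σ = v), ψ σ =
          ∑ _σ ∈ Finset.univ.filter (fun σ => ψ σ = v), v :=
        Finset.sum_congr rfl fun σ hσ => (Finset.mem_filter.mp hσ).2
      rw [h1, Finset.sum_const, nsmul_eq_mul, mul_comm]
      congr 2
      rw [Nat.card_eq_fintype_card]
      exact Fintype.card_subtype _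
    have hLHS : ∑ v ∈ V, v * (((Nat.card (Bv v) : ℝ) / n - ε') * logPole s - C0 v - Cb - 1) =
        ((∑ σ, ψ σ) / n - ε' * Sv) * logPole s - ∑ v ∈ V, v * (C0 v + Cb + 1) := by
      rw [← hmean, hSv, Finset.sum_div, Finset.mul_sum, ← Finset.sum_sub_distrib,
        Finset.sum_mul, ← Finset.sum_sub_distrib]
      refine Finset.sum_congr rfl fun v _ => ?_
      ring
    have hεS : ε' * Sv ≤ ε := by
      rw [hε'def, div_mul_eq_mul_div, div_le_iff₀ (by positivity)]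
      nlinarith
    have hfin : ((∑ σ, ψ σ) / n - ε) * logPole s ≤ ((∑ σ, ψ σ) / n - ε' * Sv) * logPole s :=
      mul_le_mul_of_nonneg_right (by linarith) hlp
    change ((∑ σ, ψ σ) / (n : ℝ) - ε) * logPole s - _ ≤ _
    linarith

/-- **(D3)**, form without constant: for `s` close to `1`. -/
theorem exists_finset_sum_ge_of_lt [Fintype Gal(E/ℚ)] (ψ : Gal(E/ℚ) → ℝ) (hψ : ∀ σ, 0 ≤ ψ σ)
    (F : ℕ → ℝ) (S : Finset ℕ)
    (hF : ∀ p : ℕ, p.Prime → p ∉ S → ∀ A : ValuationSubring Qb, A.LiesOverPrime p →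
      ∀ φ : Qb ≃ₐ[ℚ] Qb, A.IsFrobeniusAt φ p → F p = ψ (AlgEquiv.restrictNormalHom E φ))
    {ε : ℝ} (hε : 0 < ε) :
    ∃ s0 : ℝ, 1 < s0 ∧ ∀ s : ℝ, 1 < s → s < s0 → ∃ P : Finset ℕ,
      (∀ p ∈ P, p.Prime ∧ p ∉ S) ∧
      ((∑ σ, ψ σ) / (Nat.card Gal(E/ℚ) : ℝ) - ε) * Real.log (1 / (s - 1)) ≤
        ∑ p ∈ P, F p * (p : ℝ) ^ (-s) := by
  obtain ⟨C'', hC''⟩ := exists_finset_sum_ge E ψ hψ F S hF (half_pos hε)
  have hev : ∀ᶠ s in 𝓝[>] (1 : ℝ), C'' / (ε / 2) < logPole s :=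
    tendsto_logPole.eventually_gt_atTop _
  have hmem := hev.and (Ioc_mem_nhdsGT (by norm_num : (1 : ℝ) < 2))
  obtain ⟨s0, hs0, hsub⟩ := mem_nhdsGT_iff_exists_Ioo_subset.mp hmem
  refine ⟨s0, hs0, fun s hs hs' => ?_⟩
  obtain ⟨h1, h2⟩ := hsub ⟨hs, hs'⟩
  obtain ⟨P, hP, hsum⟩ := hC'' s h2.1 h2.2
  refine ⟨P, hP, le_trans ?_ hsum⟩
  rw [div_lt_iff₀ (half_pos hε)] at h1
  change _ * logPole s ≤ _ * logPole s - C''
  nlinarith

end Main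

end Fermat.Agent.Lib.CFT.ChebDensity.Bridge
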