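/-
helper41 (P-S48 package CHEBOTAREV DENSITY).  Counting in a finite cyclic group `A` of order `N`
with `n ^ k ∣ N`: at most `n * N / 2 ^ k` elements have order not divisible by `n`.
-/
import Mathlib

set_option autoImplicit false

namespace Fermat.Agent.Lib.CFT.ChebDensity.GoodUnits

open Finset

variable {A : Type*} [CommGroup A] [Fintype A] [IsCyclic A]

/-- If the order of `τ` is not divisible by `n`, where `n ^ k` divides the order `N` of the
group, then `τ ^ (N / r ^ k) = 1` for some prime `r ∣ n`. -/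
theorem exists_prime_pow_eq_one {n k : ℕ} (hn : n ≠ 0) (hk : 1 ≤ k)
    (hN : n ^ k ∣ Fintype.card A) (τ : A) (hτ : ¬ n ∣ orderOf τ) :
    ∃ r ∈ n.primeFactors, τ ^ (Fintype.card A / r ^ k) = 1 := by
  classical
  set N := Fintype.card A with hNdef
  have hNpos : N ≠ 0 := Fintype.card_ne_zero
  set d := orderOf τ with hd
  have hdpos : d ≠ 0 := (orderOf_pos τ).ne'
  have hdN : d ∣ N := orderOf_dvd_card
  -- a prime power dividing `n` but not `d`
  have : ∃ (r j : ℕ), r.Prime ∧ r ^ j ∣ n ∧ ¬ r ^ j ∣ d := by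
    by_contra hcon
    push Not at hcon
    exact hτ ((Nat.dvd_iff_prime_pow_dvd_dvd d n).mpr fun p j hp hpj => hcon p j hp hpj)
  obtain ⟨r, j, hr, hrj, hrjd⟩ := this
  have hrn : r ∈ n.primeFactors := by
    rw [Nat.mem_primeFactors]
    refine ⟨hr, ?_, hn⟩
    have hj0 : j ≠ 0 := by
      rintro rfl
      exact hrjd (by simp)
    exact (dvd_pow_self r hj0).trans hrj
  refine ⟨r, hrn, ?_⟩
  have hrkN : r ^ k ∣ N :=
    (pow_dvd_pow_of_dvd (Nat.dvd_of_mem_primeFactors hrn) k).trans hN
  rw [← orderOf_dvd_iff_pow_eq_one]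
  have hquot0 : N / r ^ k ≠ 0 := by
    have hle : r ^ k ≤ N := Nat.le_of_dvd (Nat.pos_of_ne_zero hNpos) hrkN
    have hpos : 0 < r ^ k := pow_pos hr.pos k
    exact (Nat.div_pos hle hpos).ne'
  rw [← hd, ← Nat.factorization_le_iff_dvd hdpos hquot0, Nat.factorization_div hrkN]
  intro p
  by_cases hp : p = r
  · subst hp
    -- the `r`-part
    have h1 : d.factorization p < j := by
      by_contra hge
      push Not at hge
      exact hrjd ((hr.pow_dvd_iff_le_factorization hdpos).mpr hge)
    have h2 : j ≤ n.factorization p := (hr.pow_dvd_iff_le_factorization hn).mp hrj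
    have h3 : k * n.factorization p ≤ N.factorization p := by
      have := (Nat.factorization_le_iff_dvd (pow_ne_zero k hn) hNpos).mpr hN p
      rwa [Nat.factorization_pow, Finsupp.smul_apply, smul_eq_mul] at this
    have h4 : (p ^ k).factorization p = k := by
      rw [hr.factorization_pow, Finsupp.single_eq_same]
    rw [Finsupp.coe_tsub, Pi.sub_apply, h4]
    have h5 : n.factorization p ≤ k * n.factorization p := Nat.le_mul_of_pos_left _ hk
    have h6 : 1 ≤ n.factorization p := by omega
    -- `k * e - k ≥ e - 1`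
    have h7 : k * n.factorization p - k ≥ n.factorization p - 1 := by
      obtain ⟨e, he⟩ : ∃ e, n.factorization p = e + 1 := ⟨n.factorization p - 1, by omega⟩
      rw [he]
      have : k * (e + 1) - k = k * e := by
        rw [Nat.mul_succ]
        omega
      rw [this]
      have : e ≤ k * e := Nat.le_mul_of_pos_left _ hk
      omega
    omega
  · have h1 : d.factorization p ≤ N.factorization p :=
      (Nat.factorization_le_iff_dvd hdpos hNpos).mpr hdN p
    have h4 : (r ^ k).factorization p = 0 := by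
      rw [hr.factorization_pow]
      simp [hp]
    rw [Finsupp.coe_tsub, Pi.sub_apply, h4]
    omega

/-- At most `n * N / 2 ^ k` elements have order not divisible by `n`. -/
theorem card_not_dvd_orderOf_mul_le {n k : ℕ} (hn : n ≠ 0) (hk : 1 ≤ k)
    (hN : n ^ k ∣ Fintype.card A) [DecidablePred fun τ : A => ¬ n ∣ orderOf τ] :
    (univ.filter fun τ : A => ¬ n ∣ orderOf τ).card * 2 ^ k ≤ n * Fintype.card A := by
  classical
  set N := Fintype.card A with hNdef
  have hsub : (univ.filter fun τ : A => ¬ n ∣ orderOf τ) ⊆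
      n.primeFactors.biUnion fun r => univ.filter fun τ : A => τ ^ (N / r ^ k) = 1 := by
    intro τ hτ
    rw [Finset.mem_filter] at hτ
    obtain ⟨r, hr, hpow⟩ := exists_prime_pow_eq_one hn hk hN τ hτ.2
    rw [Finset.mem_biUnion]
    exact ⟨r, hr, Finset.mem_filter.mpr ⟨Finset.mem_univ _, hpow⟩⟩
  have h1 : (univ.filter fun τ : A => ¬ n ∣ orderOf τ).card ≤
      ∑ r ∈ n.primeFactors, (univ.filter fun τ : A => τ ^ (N / r ^ k) = 1).card :=
    (Finset.card_le_card hsub).trans Finset.card_biUnion_le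
  have h2 : ∀ r ∈ n.primeFactors,
      (univ.filter fun τ : A => τ ^ (N / r ^ k) = 1).card * 2 ^ k ≤ N := by
    intro r hr
    have hrp : r.Prime := Nat.prime_of_mem_primeFactors hr
    have hrkN : r ^ k ∣ N := (pow_dvd_pow_of_dvd (Nat.dvd_of_mem_primeFactors hr) k).trans hN
    have hNpos : 0 < N := Fintype.card_pos
    have hquotpos : 0 < N / r ^ k :=
      Nat.div_pos (Nat.le_of_dvd hNpos hrkN) (pow_pos hrp.pos k)
    have h3 : (univ.filter fun τ : A => τ ^ (N / r ^ k) = 1).card ≤ N / r ^ k :=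
      IsCyclic.card_pow_eq_one_le hquotpos
    calc (univ.filter fun τ : A => τ ^ (N / r ^ k) = 1).card * 2 ^ k
        ≤ (N / r ^ k) * r ^ k :=
          Nat.mul_le_mul h3 (Nat.pow_le_pow_left hrp.two_le k)
      _ = N := Nat.div_mul_cancel hrkN
  calc (univ.filter fun τ : A => ¬ n ∣ orderOf τ).card * 2 ^ k
      ≤ (∑ r ∈ n.primeFactors, (univ.filter fun τ : A => τ ^ (N / r ^ k) = 1).card) * 2 ^ k :=
        Nat.mul_le_mul_right _ h1
    _ = ∑ r ∈ n.primeFactors, (univ.filter fun τ : A => τ ^ (N / r ^ k) = 1).card * 2 ^ k := by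
        rw [Finset.sum_mul]
    _ ≤ ∑ _r ∈ n.primeFactors, N := Finset.sum_le_sum h2
    _ = n.primeFactors.card * N := by rw [Finset.sum_const, smul_eq_mul]
    _ ≤ n * N := Nat.mul_le_mul_right _ (by
          have hsub : n.primeFactors ⊆ Finset.Icc 1 n := fun p hp =>
            Finset.mem_Icc.mpr ⟨(Nat.prime_of_mem_primeFactors hp).one_le,
              Nat.le_of_dvd (Nat.pos_of_ne_zero hn) (Nat.dvd_of_mem_primeFactors hp)⟩
          simpa using Finset.card_le_card hsub)

end Fermat.Agent.Lib.CFT.ChebDensity.GoodUnits
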