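/-
helper41 (P-S48 package CHEBOTAREV DENSITY).  Factorisation of the zeta function of `M = F(ζ_m)`
WITHOUT assuming that the cyclotomic polynomial is irreducible over `F`:
`∏_χ L_F(s, χ) = L_M(s, 1_m) ^ d` with `d = φ(m) / [M : F]`.
Generalisation of `Cheb/ZetaFactor.lean` (where `d = 1`).
-/
import Mathlib
import Fermat.Agent.Lib.CFT.Cheb.ZetaFactor

set_option autoImplicit false
set_option linter.unusedSectionVars false

namespace Fermat.Agent.Lib.CFT.ChebDensity.ZetaFactorGen

open NumberField IsDedekindDomain Filter Topology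
open scoped nonZeroDivisors
open Fermat.Agent.Lib.CFT.Cheb Fermat.Agent.Lib.CFT.Cheb.ZetaFactor
open Fermat.Agent.Lib.CFT.Unram.EulerProduct

section Degree

variable (F M : Type*) [Field F] [NumberField F] [Field M] [NumberField M] [Algebra F M]
  (m : ℕ) [NeZero m] [IsCyclotomicExtension {m} F M]

/-- The degree of a cyclotomic extension divides `φ(m)`. -/
theorem finrank_dvd_totient : Module.finrank F M ∣ m.totient := by
  have : IsGalois F M := IsCyclotomicExtension.isGalois {m} F M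
  have hζ := IsCyclotomicExtension.zeta_spec m F M
  have h := Subgroup.card_dvd_of_injective (hζ.autToPow F) (hζ.autToPow_injective F)
  rwa [IsGalois.card_aut_eq_finrank, Nat.card_eq_fintype_card, ZMod.card_units_eq_totient] at h

/-- The exponent `d = φ(m) / [M : F]`. -/
noncomputable def dexp : ℕ := m.totient / Module.finrank F M

theorem dexp_mul_finrank : dexp F M m * Module.finrank F M = m.totient :=
  Nat.div_mul_cancel (finrank_dvd_totient F M m)

theorem dexp_pos : 0 < dexp F M m := by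
  have h := dexp_mul_finrank F M m
  have hpos : 0 < m.totient := Nat.totient_pos.mpr (NeZero.pos m)
  rcases Nat.eq_zero_or_pos (dexp F M m) with h0 | h0
  · rw [h0, zero_mul] at h
    omega
  · exact h0

end Degree

section Main

variable (F M : Type*) [Field F] [NumberField F] [Field M] [NumberField M] [Algebra F M]
  (m : ℕ) [NeZero m] [IsCyclotomicExtension {m} F M]

/-- The Euler factors at a prime `q` of `F`, general form. -/
theorem finprod_fiber_pow_eq (q : HeightOneSpectrum (𝓞 F)) (s : ℂ) :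
    (∏ᶠ Q : {Q : HeightOneSpectrum (𝓞 M) // Q.under (𝓞 F) = q},
      (1 - idealChar M m (1 : DirichletCharacter ℂ m) (primeIdeal M Q.1) *
        (Ideal.absNorm Q.1.asIdeal : ℂ) ^ (-s))⁻¹) ^ dexp F M m =
    ∏ χ : DirichletCharacter ℂ m,
      (1 - idealChar F m χ (primeIdeal F q) * (Ideal.absNorm q.asIdeal : ℂ) ^ (-s))⁻¹ := by
  let _ : Fintype {Q : HeightOneSpectrum (𝓞 M) // Q.under (𝓞 F) = q} := Fintype.ofFinite _
  rw [finprod_eq_prod_of_fintype]
  have hQu : ∀ Q : {Q : HeightOneSpectrum (𝓞 M) // Q.under (𝓞 F) = q},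
      Q.1.asIdeal.under (𝓞 F) = q.asIdeal := fun Q => congrArg HeightOneSpectrum.asIdeal Q.2
  have hmem : ∀ Q : {Q : HeightOneSpectrum (𝓞 M) // Q.under (𝓞 F) = q},
      (m : 𝓞 M) ∈ Q.1.asIdeal ↔ (m : 𝓞 F) ∈ q.asIdeal := by
    intro Q
    rw [← hQu Q, Ideal.under_def, Ideal.mem_comap, map_natCast]
  by_cases hm : (m : 𝓞 F) ∈ q.asIdeal
  · have h1 : ∀ χ : DirichletCharacter ℂ m, idealChar F m χ (primeIdeal F q) = 0 := by
      intro χ
      rw [idealChar_apply]
      exact χ.map_nonunit (not_isUnit_absNorm_of_mem m q.isPrime.ne_top hm)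
    have h2 : ∀ Q : {Q : HeightOneSpectrum (𝓞 M) // Q.under (𝓞 F) = q},
        idealChar M m (1 : DirichletCharacter ℂ m) (primeIdeal M Q.1) = 0 := by
      intro Q
      rw [idealChar_apply]
      exact MulChar.map_nonunit _
        (not_isUnit_absNorm_of_mem m Q.1.isPrime.ne_top ((hmem Q).mpr hm))
    simp only [h1, h2, zero_mul, sub_zero, inv_one, Finset.prod_const_one, one_pow]
  · obtain ⟨⟨Q₀, hQ₀p, hQ₀l⟩⟩ := (inferInstance : Nonempty (q.asIdeal.primesOver (𝓞 M)))
    have hQ₀u : Q₀.under (𝓞 F) = q.asIdeal := hQ₀l.over.symm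
    have hQ₀0 : Q₀ ≠ ⊥ := Ideal.ne_bot_of_mem_primesOver q.ne_bot ⟨hQ₀p, hQ₀l⟩
    have hmQ₀ : (m : 𝓞 M) ∉ Q₀ := by
      intro h
      apply hm
      rw [← hQ₀u, Ideal.under_def, Ideal.mem_comap, map_natCast]
      exact h
    obtain ⟨u, hu, -⟩ := exists_unit_inertiaDeg_eq_orderOf (F := F) hQ₀0 hmQ₀
    rw [hQ₀u] at hu
    have hcount := ncard_primesOver_mul_orderOf (F := F) hQ₀0 hmQ₀ (u := u) (by rw [hQ₀u, hu])
    rw [hQ₀u, ← card_fiber, Nat.card_eq_fintype_card] at hcount
    have hf0 : 0 < orderOf u := orderOf_pos u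
    set T : ℂ := (Ideal.absNorm q.asIdeal : ℂ) ^ (-s) with hT
    have hfac : ∀ Q : {Q : HeightOneSpectrum (𝓞 M) // Q.under (𝓞 F) = q},
        (1 - idealChar M m (1 : DirichletCharacter ℂ m) (primeIdeal M Q.1) *
          (Ideal.absNorm Q.1.asIdeal : ℂ) ^ (-s))⁻¹ = (1 - T ^ orderOf u)⁻¹ := by
      intro Q
      have hmQ : (m : 𝓞 M) ∉ Q.1.asIdeal := fun h => hm ((hmem Q).mp h)
      have hN : Ideal.absNorm Q.1.asIdeal = Ideal.absNorm q.asIdeal ^ orderOf u := by
        have := absNorm_eq_pow_orderOf (F := F) Q.1.ne_bot hmQ (u := u) (by rw [hQu Q, hu])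
        rwa [hQu Q] at this
      have h1 : idealChar M m (1 : DirichletCharacter ℂ m) (primeIdeal M Q.1) = 1 := by
        rw [idealChar_apply, coe_primeIdeal, hN, Nat.cast_pow, ← hu, ← Units.val_pow_eq_pow_val,
          MulChar.one_apply_coe]
      rw [h1, one_mul, hN, natCast_pow_cpow]
    have hchar : ∀ χ : DirichletCharacter ℂ m,
        (1 - idealChar F m χ (primeIdeal F q) * (Ideal.absNorm q.asIdeal : ℂ) ^ (-s))⁻¹ =
          (1 - χ (u : ZMod m) * T)⁻¹ := by
      intro χ
      rw [idealChar_apply, coe_primeIdeal, ← hu]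
    rw [Finset.prod_congr rfl fun Q _ => hfac Q, Finset.prod_congr rfl fun χ _ => hchar χ,
      CharGroup.prod_inv_one_sub_mul, Finset.prod_const, Finset.card_univ, inv_pow, inv_pow,
      ← pow_mul]
    congr 2
    -- `(n / f) * d = φ(m) / f`
    have hd := dexp_mul_finrank F M m
    have h3 : Fintype.card {Q : HeightOneSpectrum (𝓞 M) // Q.under (𝓞 F) = q} * dexp F M m *
        orderOf u = m.totient := by
      calc Fintype.card {Q : HeightOneSpectrum (𝓞 M) // Q.under (𝓞 F) = q} * dexp F M m *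
          orderOf u = dexp F M m * (Fintype.card {Q : HeightOneSpectrum (𝓞 M) //
            Q.under (𝓞 F) = q} * orderOf u) := by ring
        _ = m.totient := by rw [hcount, hd]
    exact (Nat.div_eq_of_eq_mul_left hf0 h3.symm).symm

/-- **Factorisation of the `L`-series in a cyclotomic extension, general form.** -/
theorem prod_LSer_eq_pow {s : ℂ} (hs : 1 < s.re) :
    ∏ χ : DirichletCharacter ℂ m, LSer F m χ s =
      LSer M m (1 : DirichletCharacter ℂ m) s ^ dexp F M m := by
  have h1 : HasProd (fun q : HeightOneSpectrum (𝓞 F) => ∏ χ : DirichletCharacter ℂ m,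
      (1 - idealChar F m χ (primeIdeal F q) * (Ideal.absNorm q.asIdeal : ℂ) ^ (-s))⁻¹)
      (∏ χ : DirichletCharacter ℂ m, LSer F m χ s) :=
    hasProd_prod fun χ _ =>
      LSeriesIdeal_hasProd F (idealChar F m χ) (norm_idealChar_le_one F m χ) hs
  have h2 := (hasProd_under F (LSeriesIdeal_hasProd M (idealChar M m 1)
    (norm_idealChar_le_one M m 1) hs)).pow (dexp F M m)
  rw [funext fun q => finprod_fiber_pow_eq F M m q s] at h2
  exact h1.unique h2

/-- The pole of order `d` of `∏_χ L(s, χ)` at `s = 1`. -/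
theorem tendsto_sub_one_pow_mul_prod_LSer :
    Tendsto (fun s : ℝ => ((s : ℂ) - 1) ^ dexp F M m *
        ∏ χ : DirichletCharacter ℂ m, LSer F m χ (s : ℂ))
      (𝓝[>] 1) (𝓝 (((LSeries.poleConst M m : ℝ) : ℂ) ^ dexp F M m)) := by
  refine ((LSeries.tendsto_sub_one_mul_LSer_one M m).pow (dexp F M m)).congr' ?_
  filter_upwards [self_mem_nhdsWithin] with s hs
  have hs1 : (1 : ℝ) < s := hs
  rw [prod_LSer_eq_pow F M m (by simpa using hs1), mul_pow]

end Main

end Fermat.Agent.Lib.CFT.ChebDensity.ZetaFactorGen
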